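import Fermat.Agent.SiegelWalfisz.Perron
import Fermat.Agent.SiegelWalfisz.Twisted
import Fermat.Agent.BombieriVinogradov.Main
import Mathlib.NumberTheory.ArithmeticFunction.Liouville

/-!
# The sums of the functions of Möbius and Liouville

`∑_{n ≤ x} μ n` and `∑_{n ≤ x} λ n` are `O (x / (log x) ^ A)` for every `A`: the smoothed Perron
formula for `1 / ζ` in the region free of zeros, and `λ = μ * (squares)`.
-/

set_option autoImplicit false

noncomputable section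

namespace FA.SieveConstant

open Finset Filter Complex
open FA.SiegelWalfisz (smoothSum exists_norm_smoothSum_le exists_rpow_mul_exp_le)
open FA.ZeroFree (ell tenth)
open scoped ArithmeticFunction.Moebius

/-- `1 / ζ`, continued to the pole. -/
def zetaInv (s : ℂ) : ℂ := (s - 1) / riemannZeta₁ s

theorem zetaInv_eq {s : ℂ} (hs : s ≠ 1) : zetaInv s = (riemannZeta s)⁻¹ := by
  rw [zetaInv, riemannZeta_eq_inv_sub_mul hs, mul_inv, inv_inv, div_eq_mul_inv]

theorem lseries_moebius_eq {s : ℂ} (hs : 1 < s.re) :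
    LSeries (fun n => (μ n : ℂ)) s = zetaInv s := by
  have h := ArithmeticFunction.LSeries_zeta_mul_Lseries_moebius hs
  rw [ArithmeticFunction.LSeries_zeta_eq_riemannZeta hs] at h
  rw [zetaInv_eq fun e => by simp [e] at hs]
  exact eq_inv_of_mul_eq_one_right h

/-- `1 / ζ` in the region free of zeros. -/
theorem exists_zetaInv_le : ∃ a C, 0 < a ∧ a ≤ 1 ∧ 0 ≤ C ∧ ∀ s : ℂ,
    1 - a / ell s.im ^ 9 ≤ s.re → s.re ≤ 2 →
      DifferentiableAt ℂ zetaInv s ∧ ‖zetaInv s‖ ≤ C * ell s.im ^ 9 := by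
  obtain ⟨a, C₀, ha, ha1, -, h⟩ := ZeroFree.exists_region
  obtain ⟨η, hη, -, hlow⟩ := ZeroFree.exists_low_region
  obtain ⟨b, hb⟩ : ∃ b, b = min a (min η ZeroFree.widthConst) := ⟨_, rfl⟩
  have hA := ZeroFree.widthConst_pos
  have hD := ZeroFree.one_le_derivConst
  have hK : IsCompact (Set.Icc (1 - η) 2 ×ℂ Set.Icc (-2 : ℝ) 2) :=
    IsCompact.reProdIm isCompact_Icc isCompact_Icc
  have hd : ∀ s : ℂ, riemannZeta₁ s ≠ 0 → DifferentiableAt ℂ zetaInv s := fun s hs =>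
    (differentiableAt_id.sub_const 1).div (differentiable_riemannZeta₁ s) hs
  obtain ⟨M, hM⟩ := hK.exists_bound_of_continuousOn (f := zetaInv) fun s hs =>
    (hd s (hlow s (abs_le.2 (Complex.mem_reProdIm.1 hs).2) (Complex.mem_reProdIm.1 hs).1.1
      (Complex.mem_reProdIm.1 hs).1.2)).continuousAt.continuousWithinAt
  refine ⟨b, |M| + 1 / (2 * ZeroFree.widthConst * ZeroFree.derivConst),
    hb ▸ lt_min ha (lt_min hη hA), hb ▸ (min_le_left _ _).trans ha1, by positivity,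
    fun s hs hs2 => ?_⟩
  obtain ⟨L, hL⟩ : ∃ L, L = ell s.im := ⟨_, rfl⟩
  rw [← hL] at hs ⊢
  have hL4 : 4 ≤ L := hL ▸ ZeroFree.four_le_ell _
  have hL9 : 1 ≤ L ^ 9 := one_le_pow₀ (by linarith)
  have hmono : ∀ c, b ≤ c → 1 - c / L ^ 9 ≤ s.re := fun c hc =>
    le_trans (sub_le_sub_left (div_le_div_of_nonneg_right hc (by positivity)) 1) hs
  have hz : riemannZeta₁ s ≠ 0 := (h s (hL ▸ hmono a (hb ▸ min_le_left _ _)) hs2).1
  refine ⟨hd s hz, ?_⟩
  rw [add_mul]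
  have h0 : 0 ≤ 1 / (2 * ZeroFree.widthConst * ZeroFree.derivConst) * L ^ 9 := by positivity
  rcases le_total |s.im| 2 with ht | ht
  · have h1 : 1 - η ≤ s.re := by
      have hη' := hmono η (hb ▸ (min_le_right _ _).trans (min_le_left _ _))
      have : η / L ^ 9 ≤ η := div_le_self hη.le hL9
      linarith
    have h2 := hM s (Complex.mem_reProdIm.2 ⟨⟨h1, hs2⟩, abs_le.1 ht⟩)
    nlinarith [le_abs_self M, abs_nonneg M]
  · have hlb := ZeroFree.lower_bound ht
      (hL ▸ hmono _ (hb ▸ (min_le_right _ _).trans (min_le_right _ _))) hs2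
    rw [Complex.re_add_im, ← hL] at hlb
    have hs1 : s ≠ 1 := fun e => by rw [e] at ht; norm_num at ht
    rw [zetaInv_eq hs1, norm_inv]
    refine le_trans (inv_anti₀ (by positivity) hlb) (le_add_of_nonneg_of_le (by positivity) ?_)
    rw [inv_div, one_div_mul_eq_div]
    exact div_le_div_of_nonneg_right (pow_le_pow_right₀ (by linarith) (by norm_num))
      (by positivity)

/-- The smoothed sum of `μ`. -/
theorem exists_smooth_moebius_le : ∃ c C, 0 < c ∧ 0 ≤ C ∧ ∀ x : ℝ, 3 ≤ x →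
    ‖smoothSum (fun n => (μ n : ℂ)) x‖ ≤ C * x * Real.exp (-(c * tenth x)) := by
  obtain ⟨a, C, ha, ha1, hC, h⟩ := exists_zetaInv_le
  obtain ⟨K, hK, hP⟩ := exists_norm_smoothSum_le
  obtain ⟨J, hJ1, hJ⟩ := ZeroFree.ell_pow_le
  obtain ⟨c, hc⟩ : ∃ c, c = a / 6 ^ 9 := ⟨_, rfl⟩
  have hc0 : 0 < c := by rw [hc]; positivity
  have hc2 : c ≤ 1 / 2 := by
    rw [hc, div_le_iff₀ (by positivity)]
    linarith
  refine ⟨c, K * (C * J) * 2, hc0, by positivity, fun x hx => ?_⟩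
  obtain ⟨hg1, -⟩ := ZeroFree.tenth_le_log hx
  obtain ⟨g, hg⟩ : ∃ g, g = tenth x := ⟨_, rfl⟩
  rw [← hg] at hg1 ⊢
  obtain ⟨T, hT⟩ : ∃ T, T = Real.exp g := ⟨_, rfl⟩
  have hT1 : 1 ≤ T := hT ▸ Real.one_le_exp (by linarith)
  obtain ⟨l, hl⟩ : ∃ l, l = ell T := ⟨_, rfl⟩
  have hl4 : 4 ≤ l := hl ▸ ZeroFree.four_le_ell T
  have hl6 : l ≤ 6 * g := by
    rw [hl, ell, abs_of_pos (by linarith : 0 < T), Real.log_le_iff_le_exp (by linarith)]
    refine le_trans (b := T * 128) (by linarith) ?_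
    rw [show 6 * g = g + 5 * g by ring, Real.exp_add, ← hT]
    refine mul_le_mul_of_nonneg_left ?_ (by linarith)
    refine le_trans ?_ (Real.exp_le_exp.2 (show (5 : ℝ) ≤ 5 * g by linarith))
    calc (128 : ℝ) ≤ 2.7 ^ 5 := by norm_num
      _ ≤ Real.exp 1 ^ 5 := pow_le_pow_left₀ (by norm_num) (by linarith [Real.exp_one_gt_d9]) 5
      _ = Real.exp 5 := by rw [← Real.exp_nat_mul]; norm_num
  have hal : a / l ^ 9 ≤ 1 / 2 := by
    rw [div_le_iff₀ (by positivity)]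
    have := pow_le_pow_left₀ (by norm_num) hl4 9
    linarith
  refine (hP _ zetaInv x T (1 - a / l ^ 9) (C * J) hx hT1 (by linarith)
    (by have : 0 ≤ a / l ^ 9 := by positivity
        linarith) (by positivity)
    (fun σ hσ => ArithmeticFunction.LSeriesSummable_moebius_iff.2 (by simpa using hσ))
    (fun s hs => lseries_moebius_eq hs) fun σ y hy h2 => ?_).trans ?_
  · have him : ((σ : ℂ) + y * I).im = y := by simp
    have hre : ((σ : ℂ) + y * I).re = σ := by simp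
    have hs : 1 - a / ell y ^ 9 ≤ σ := by
      rcases hy with ⟨hy1, hy2⟩ | hy1
      · refine le_trans (sub_le_sub_left (div_le_div_of_nonneg_left ha.le
          (pow_pos (ZeroFree.ell_pos y) 9) (pow_le_pow_left₀ (ZeroFree.ell_pos y).le ?_ 9)) 1) hy2
        exact hl ▸ ZeroFree.ell_mono (hy1.trans (le_abs_self T))
      · have : 0 ≤ a / ell y ^ 9 := div_nonneg ha.le (pow_nonneg (ZeroFree.ell_pos y).le 9)
        linarith
    obtain ⟨hd, hn⟩ := h _ (by rw [him, hre]; exact hs) (by rw [hre]; exact h2)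
    rw [him] at hn
    exact ⟨hd, hn.trans ((mul_le_mul_of_nonneg_left (hJ y) hC).trans_eq (mul_assoc _ _ _).symm)⟩
  · have hx0 : 0 < x := by linarith
    have hlog : Real.log x = g ^ 10 := by
      rw [hg, tenth, ← Real.rpow_natCast, ← Real.rpow_mul (Real.log_nonneg (by linarith))]
      norm_num
    have h1 : x ^ (1 - a / l ^ 9 - 1) ≤ Real.exp (-(c * g)) := by
      rw [show 1 - a / l ^ 9 - 1 = -(a / l ^ 9) by ring, Real.rpow_def_of_pos hx0,
        Real.exp_le_exp, mul_neg, neg_le_neg_iff, hlog, hc]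
      refine le_of_eq_of_le ?_ (mul_le_mul_of_nonneg_left (div_le_div_of_nonneg_left ha.le
        (by positivity) (pow_le_pow_left₀ (by linarith) hl6 9)) (by positivity))
      field_simp
    have h2 : T ^ (-(1 / 2) : ℝ) ≤ Real.exp (-(c * g)) := by
      rw [hT, ← Real.exp_mul, Real.exp_le_exp]
      nlinarith
    refine (mul_le_mul_of_nonneg_left (add_le_add h1 h2) (by positivity)).trans (le_of_eq ?_)
    ring

/-- `∑_{n ≤ x} μ n`. -/
def mertensSum (x : ℝ) : ℝ := ∑ n ∈ Icc 1 ⌊x⌋₊, (μ n : ℝ)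

/-- `∑_{n ≤ x} μ n (x - n)`. -/
def mertensMoment (x : ℝ) : ℝ := ∑ n ∈ Icc 1 ⌊x⌋₊, (μ n : ℝ) * (x - n)

theorem smoothSum_moebius {x : ℝ} (hx : x ≠ 0) :
    (mertensMoment x : ℂ) = x * smoothSum (fun n => (μ n : ℂ)) x := by
  rw [mertensMoment, smoothSum, Complex.ofReal_sum, mul_sum]
  refine sum_congr rfl fun n _ => ?_
  have : (x : ℂ) ≠ 0 := Complex.ofReal_ne_zero.2 hx
  push_cast
  field_simp

/-- The smoothing undone. -/
theorem abs_mertensSum_le {x h : ℝ} (hx : 0 ≤ x) (hh : 0 ≤ h) :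
    |mertensSum x| * h ≤ |mertensMoment (x + h)| + |mertensMoment x| + h * (h + 1) := by
  have hsub : Icc 1 ⌊x⌋₊ ⊆ Icc 1 ⌊x + h⌋₊ := Icc_subset_Icc_right (Nat.floor_le_floor (by linarith))
  obtain ⟨R, hR⟩ : ∃ R : ℝ, R = ∑ n ∈ Icc 1 ⌊x + h⌋₊ \ Icc 1 ⌊x⌋₊, (μ n : ℝ) * (x + h - n) :=
    ⟨_, rfl⟩
  have e : mertensMoment (x + h) = mertensMoment x + mertensSum x * h + R := by
    rw [mertensMoment, mertensMoment, mertensSum, hR, ← sum_sdiff hsub, add_comm, sum_mul,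
      ← sum_add_distrib]
    congr 1
    exact sum_congr rfl fun n _ => by ring
  have hR' : |R| ≤ h * (h + 1) := by
    rw [hR]
    refine (abs_sum_le_sum_abs _ _).trans ((sum_le_card_nsmul _ _ h fun n hn => ?_).trans ?_)
    · rw [Finset.mem_sdiff, mem_Icc, mem_Icc, not_and, not_le] at hn
      have h1 : x < n := Nat.lt_of_floor_lt (hn.2 hn.1.1)
      have h2 : (n : ℝ) ≤ x + h :=
        (Nat.cast_le.2 hn.1.2).trans (Nat.floor_le (by linarith))
      rw [abs_mul, abs_of_nonneg (show 0 ≤ x + h - n by linarith)]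
      exact (mul_le_of_le_one_left (by linarith)
        (by exact_mod_cast ArithmeticFunction.abs_moebius_le_one)).trans (by linarith)
    · rw [nsmul_eq_mul, card_sdiff_of_subset hsub, Nat.card_Icc, Nat.card_Icc, mul_comm]
      refine mul_le_mul_of_nonneg_left ?_ hh
      rw [Nat.cast_sub (by have := Nat.floor_le_floor (show x ≤ x + h by linarith); omega)]
      simp only [Nat.add_sub_cancel]
      linarith [Nat.floor_le (show 0 ≤ x + h by linarith), Nat.lt_floor_add_one x]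
  have : |mertensSum x * h| ≤ |mertensMoment (x + h)| + |mertensMoment x| + |R| := by
    rw [show mertensSum x * h = mertensMoment (x + h) - mertensMoment x - R by linarith]
    exact (abs_sub _ _).trans (add_le_add_left (abs_sub _ _) _)
  rw [abs_mul, abs_of_nonneg hh] at this
  linarith

/-- **`∑_{n ≤ x} μ n = O (x / (log x) ^ A)`.** -/
theorem exists_mertensSum_le (A : ℕ) : ∃ C, 0 ≤ C ∧ ∀ᶠ x : ℝ in atTop,
    |mertensSum x| ≤ C * x / Real.log x ^ A := by
  obtain ⟨c, C, hc, hC, h⟩ := exists_smooth_moebius_le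
  obtain ⟨K, hK, hexp⟩ := exists_rpow_mul_exp_le ((10 * (2 * A) : ℕ) : ℝ) hc
  refine ⟨8 * (C * K) + 3, by positivity, ?_⟩
  filter_upwards [eventually_ge_atTop (3 : ℝ),
    ((isLittleO_log_rpow_rpow_atTop (A : ℝ) zero_lt_one).bound zero_lt_one)] with x hx hLx
  obtain ⟨L, hL⟩ : ∃ L, L = Real.log x := ⟨_, rfl⟩
  have hL1 : 1 ≤ L := hL ▸ (ZeroFree.tenth_le_log hx).1.trans (ZeroFree.tenth_le_log hx).2
  rw [← hL] at hLx ⊢
  have hLA : L ^ A ≤ x := by
    simpa [abs_of_nonneg (show 0 ≤ x by linarith), abs_of_nonneg (show 0 ≤ L by linarith)]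
      using hLx
  have hbound : ∀ z, x ≤ z → |mertensMoment z| ≤ C * K * z ^ 2 / L ^ (2 * A) := by
    intro z hz
    have hz3 : 3 ≤ z := hx.trans hz
    obtain ⟨u, hu⟩ : ∃ u, u = tenth z := ⟨_, rfl⟩
    have hu1 : 1 ≤ u := hu ▸ (ZeroFree.tenth_le_log hz3).1
    have hu10 : L ≤ u ^ 10 := by
      rw [hu, tenth, ← Real.rpow_natCast, ← Real.rpow_mul (Real.log_nonneg (by linarith)), hL]
      norm_num
      exact Real.log_le_log (by linarith) hz
    have h1 := hexp u hu1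
    rw [Real.rpow_natCast, pow_mul] at h1
    have h2 : Real.exp (-(c * u)) ≤ K / L ^ (2 * A) := by
      rw [le_div_iff₀ (by positivity), mul_comm]
      exact le_trans (mul_le_mul_of_nonneg_right (pow_le_pow_left₀ (by linarith) hu10 _)
        (Real.exp_pos _).le) h1
    have h3 := congrArg (‖·‖) (smoothSum_moebius (show z ≠ 0 by linarith))
    simp only [norm_mul, Complex.norm_real, Real.norm_eq_abs,
      abs_of_pos (show 0 < z by linarith)] at h3
    rw [h3]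
    refine (mul_le_mul_of_nonneg_left ((h z hz3).trans
      (mul_le_mul_of_nonneg_left (hu ▸ h2) (by positivity))) (by linarith)).trans (le_of_eq ?_)
    ring
  obtain ⟨w, hw⟩ : ∃ w, w = x / L ^ A := ⟨_, rfl⟩
  have hw1 : 1 ≤ w := hw ▸ (one_le_div (by positivity)).2 hLA
  have hwx : w ≤ x := hw ▸ div_le_self (by linarith) (one_le_pow₀ hL1)
  have h1 := abs_mertensSum_le (show 0 ≤ x by linarith) (show 0 ≤ w by linarith)
  have h2 := hbound (x + w) (by linarith)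
  have h3 := hbound x le_rfl
  have h4 : (x + w) ^ 2 ≤ 4 * x ^ 2 := by nlinarith
  have h5 : C * K * x ^ 2 / L ^ (2 * A) = C * K * w ^ 2 := by
    rw [hw, div_pow, ← pow_mul, mul_comm A 2]
    ring
  have h6 : C * K * (x + w) ^ 2 / L ^ (2 * A) ≤ 4 * (C * K * w ^ 2) := by
    rw [← h5, ← mul_div_assoc, show 4 * (C * K * x ^ 2) = C * K * (4 * x ^ 2) by ring]
    gcongr
  have h7 : |mertensSum x| * w ≤ ((8 * (C * K) + 3) * w) * w := by
    nlinarith [mul_nonneg (mul_nonneg hC hK.le) (sq_nonneg w)]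
  refine (le_of_mul_le_mul_right h7 (by linarith)).trans (le_of_eq ?_)
  rw [hw]
  ring

theorem liouville_sq_mul {d m : ℕ} (hd : d ≠ 0) (hm : Squarefree m) :
    ArithmeticFunction.liouville (d ^ 2 * m) = μ m := by
  rw [ArithmeticFunction.liouville_apply (mul_ne_zero (pow_ne_zero _ hd) hm.ne_zero),
    ArithmeticFunction.moebius_apply_of_squarefree hm,
    ArithmeticFunction.cardFactors_mul (pow_ne_zero _ hd) hm.ne_zero, pow_add,
    ArithmeticFunction.cardFactors_pow, pow_mul]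
  norm_num

/-- **`λ = μ * (squares)`**, summed. -/
theorem sum_liouville_mul_eq {R : Type} [CommRing R] (g : ℕ → R) (N : ℕ) :
    (∑ n ∈ Icc 1 N, (ArithmeticFunction.liouville n : R) * g n) =
      ∑ d ∈ Icc 1 N, ∑ m ∈ Icc 1 (N / d ^ 2), (μ m : R) * g (d ^ 2 * m) := by
  classical
  rw [sum_sigma', ← sum_filter_of_ne (p := fun z : Σ _ : ℕ, ℕ => Squarefree z.2)
    (fun z _ hz => ArithmeticFunction.moebius_ne_zero_iff_squarefree.1 fun e => hz (by simp [e]))]
  have hmem : ∀ z : Σ _ : ℕ, ℕ, z ∈ ((Icc 1 N).sigma fun d => Icc 1 (N / d ^ 2)).filter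
      (fun z => Squarefree z.2) → 1 ≤ z.1 ∧ Squarefree z.2 ∧ z.1 ^ 2 * z.2 ≤ N := by
    intro z hz
    simp only [mem_filter, mem_sigma, mem_Icc] at hz
    refine ⟨hz.1.1.1, hz.2, ?_⟩
    have := (Nat.le_div_iff_mul_le (pow_pos hz.1.1.1 2)).1 hz.1.2.2
    rwa [mul_comm]
  symm
  refine sum_bij (fun z _ => z.1 ^ 2 * z.2) (fun z hz => ?_) (fun z hz w hw e => ?_)
    (fun n hn => ?_) fun z hz => ?_
  · obtain ⟨h1, h2, h3⟩ := hmem z hz
    exact mem_Icc.2 ⟨Nat.one_le_iff_ne_zero.2 (mul_ne_zero (pow_ne_zero _ (by omega)) h2.ne_zero),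
      h3⟩
  · obtain ⟨h1, h2, -⟩ := hmem z hz
    obtain ⟨k1, k2, -⟩ := hmem w hw
    obtain ⟨d, m⟩ := z
    obtain ⟨d', m'⟩ := w
    dsimp only at e h1 h2 k1 k2
    have hv : ∀ p, m.factorization p = m'.factorization p := fun p => by
      have := congrArg (fun n => n.factorization p) e
      simp only [Nat.factorization_mul (pow_ne_zero _ (show d ≠ 0 by omega)) h2.ne_zero,
        Nat.factorization_mul (pow_ne_zero _ (show d' ≠ 0 by omega)) k2.ne_zero,
        Nat.factorization_pow, Finsupp.add_apply, Finsupp.smul_apply, smul_eq_mul] at this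
      have := h2.natFactorization_le_one p
      have := k2.natFactorization_le_one p
      omega
    have hm : m = m' := Nat.eq_of_factorization_eq h2.ne_zero k2.ne_zero hv
    subst hm
    rw [Nat.mul_left_inj h2.ne_zero, Nat.pow_left_inj two_ne_zero] at e
    rw [e]
  · rw [mem_Icc] at hn
    obtain ⟨m, d, hm0, hd0, hdm, hm⟩ := Nat.sq_mul_squarefree_of_pos (n := n) (by omega)
    refine ⟨⟨d, m⟩, ?_, hdm⟩
    simp only [mem_filter, mem_sigma, mem_Icc]
    have hd2 : d ≤ d ^ 2 := Nat.le_self_pow two_ne_zero d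
    refine ⟨⟨⟨hd0, ?_⟩, hm0, (Nat.le_div_iff_mul_le (pow_pos hd0 2)).2 ?_⟩, hm⟩
    · nlinarith
    · rw [mul_comm]; omega
  · obtain ⟨h1, h2, -⟩ := hmem z hz
    rw [liouville_sq_mul (by omega) h2]

theorem sum_liouville_eq (N : ℕ) :
    (∑ n ∈ Icc 1 N, (ArithmeticFunction.liouville n : ℝ)) =
      ∑ d ∈ Icc 1 N, ∑ m ∈ Icc 1 (N / d ^ 2), (μ m : ℝ) := by
  simpa using sum_liouville_mul_eq (fun _ => (1 : ℝ)) N

/-- The bound of a sum `∑_d F d ⌊N / d ²⌋`. -/
theorem exists_sum_sq_le (A : ℕ) {C : ℝ} (hC : 0 ≤ C) (x₀ : ℝ) : ∃ C', 0 ≤ C' ∧ ∀ᶠ N : ℕ in atTop,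
    ∀ F : ℕ → ℕ → ℝ, (∀ d k, F d k ≤ k) →
      (∀ (d k : ℕ), x₀ ≤ (k : ℝ) → F d k ≤ C * k / Real.log k ^ A) →
        ∑ d ∈ Icc 1 N, F d (N / d ^ 2) ≤ C' * N / Real.log N ^ A := by
  obtain ⟨S, hS⟩ : ∃ S : ℝ, S = ∑' d : ℕ, 1 / (d : ℝ) ^ (3 / 2 : ℝ) := ⟨_, rfl⟩
  have hsum : Summable fun d : ℕ => 1 / (d : ℝ) ^ (3 / 2 : ℝ) :=
    Real.summable_one_div_nat_rpow.2 (by norm_num)
  have hS0 : 0 ≤ S := hS ▸ tsum_nonneg fun d => by positivity
  refine ⟨(4 ^ A * C + 1) * S, by positivity, ?_⟩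
  filter_upwards [BombieriVinogradov.eventually_log_pow_le A (show (0 : ℝ) < 1 / 8 by norm_num),
    eventually_ge_atTop (max 16 ⌈(2 * max x₀ 1) ^ 2⌉₊)] with N hlog hN F hF hFC
  obtain ⟨L, hL⟩ : ∃ L, L = Real.log N := ⟨_, rfl⟩
  rw [← hL] at hlog ⊢
  have hN16 : 16 ≤ N := le_of_max_le_left hN
  have hN0 : (0 : ℝ) < N := Nat.cast_pos.2 (by omega)
  have hNx : (2 * max x₀ 1) ^ 2 ≤ N := Nat.ceil_le.1 (le_of_max_le_right hN)
  have hL0 : 0 < L := hL ▸ Real.log_pos (Nat.one_lt_cast.2 (by omega))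
  refine (sum_le_sum (g := fun d : ℕ => (4 ^ A * C + 1) * N / L ^ A *
    (1 / (d : ℝ) ^ (3 / 2 : ℝ))) fun d hd => ?_).trans ?_
  swap
  · rw [← mul_sum]
    refine (mul_le_mul_of_nonneg_left (hsum.sum_le_tsum _ fun d _ => by positivity)
      (by positivity)).trans (le_of_eq ?_)
    rw [hS]
    ring
  have hd0 : (0 : ℝ) < d := Nat.cast_pos.2 (mem_Icc.1 hd).1
  have hd1 : (1 : ℝ) ≤ d := Nat.one_le_cast.2 (mem_Icc.1 hd).1
  obtain ⟨k, hk⟩ : ∃ k : ℕ, k = N / d ^ 2 := ⟨_, rfl⟩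
  have hkN : (k : ℝ) ≤ N / (d : ℝ) ^ 2 := hk ▸
    (Nat.cast_div_le.trans (le_of_eq (by push_cast; rfl)))
  have hd32 : (d : ℝ) ^ (3 / 2 : ℝ) ≤ (d : ℝ) ^ 2 := by
    rw [← Real.rpow_two]
    exact Real.rpow_le_rpow_of_exponent_le hd1 (by norm_num)
  rw [← hk, mul_one_div]
  by_cases hd4 : d ^ 4 ≤ N
  · have hd2 : (d : ℝ) ^ 2 ≤ √(N : ℝ) := Real.le_sqrt_of_sq_le (by
      rw [← pow_mul]; exact_mod_cast hd4)
    have hsq : √(N : ℝ) * √(N : ℝ) = N := Real.mul_self_sqrt hN0.le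
    have hk1 : √(N : ℝ) / 2 ≤ k := by
      have h1 : (N : ℝ) / (d : ℝ) ^ 2 < k + 1 := by
        rw [div_lt_iff₀ (by positivity)]
        have := Nat.lt_mul_div_succ N (show 0 < d ^ 2 from pow_pos (mem_Icc.1 hd).1 2)
        rw [← hk, mul_comm] at this
        exact_mod_cast this
      have h2 : √(N : ℝ) ≤ N / (d : ℝ) ^ 2 := by
        rw [le_div_iff₀ (by positivity)]
        nlinarith [Real.sqrt_nonneg (N : ℝ)]
      have h4 : (4 : ℝ) ≤ √(N : ℝ) := Real.le_sqrt_of_sq_le (by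
        norm_num; exact_mod_cast hN16)
      linarith
    have hx0k : x₀ ≤ (k : ℝ) := by
      have := Real.le_sqrt_of_sq_le hNx
      linarith [le_max_left x₀ 1]
    have hlk : L / 4 ≤ Real.log k := by
      have h4 : (4 : ℝ) ≤ √(N : ℝ) := Real.le_sqrt_of_sq_le (by
        norm_num; exact_mod_cast hN16)
      have h5 : √√(N : ℝ) ≤ k := by
        have h6 : √√(N : ℝ) ≤ √(N : ℝ) / 2 := by
          rw [Real.sqrt_le_iff]
          refine ⟨by positivity, ?_⟩
          nlinarith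
        linarith
      have h7 := Real.log_le_log (Real.sqrt_pos.2 (Real.sqrt_pos.2 hN0)) h5
      rw [Real.log_sqrt (Real.sqrt_nonneg _), Real.log_sqrt hN0.le, ← hL] at h7
      linarith
    refine (hFC d k hx0k).trans ?_
    calc C * k / Real.log k ^ A ≤ C * (N / (d : ℝ) ^ (3 / 2 : ℝ)) / (L / 4) ^ A := by
          refine div_le_div₀ (by positivity) (mul_le_mul_of_nonneg_left (hkN.trans ?_) hC)
            (by positivity) (pow_le_pow_left₀ (by positivity) hlk A)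
          exact div_le_div_of_nonneg_left hN0.le (by positivity) hd32
      _ = 4 ^ A * C * N / L ^ A / (d : ℝ) ^ (3 / 2 : ℝ) := by rw [div_pow]; field_simp
      _ ≤ _ := by gcongr; linarith
  · refine (hF d k).trans (hkN.trans ?_)
    have h8 : (N : ℝ) ^ (1 / 8 : ℝ) ≤ (d : ℝ) ^ (1 / 2 : ℝ) := by
      rw [show (1 / 2 : ℝ) = (4 : ℕ) * (1 / 8) by norm_num, Real.rpow_mul hd0.le,
        Real.rpow_natCast]
      exact Real.rpow_le_rpow hN0.le (by exact_mod_cast (not_le.1 hd4).le) (by norm_num)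
    have h9 : L ^ A * (d : ℝ) ^ (3 / 2 : ℝ) ≤ (d : ℝ) ^ 2 := by
      refine (mul_le_mul_of_nonneg_right (hlog.trans h8) (by positivity)).trans (le_of_eq ?_)
      rw [← Real.rpow_add hd0, ← Real.rpow_two]
      norm_num
    rw [div_div]
    refine (div_le_div_of_nonneg_left hN0.le (by positivity) h9).trans ?_
    refine div_le_div_of_nonneg_right (le_mul_of_one_le_left hN0.le ?_) (by positivity)
    linarith [show 0 ≤ 4 ^ A * C by positivity]

/-- **`∑_{n ≤ N} λ n = O (N / (log N) ^ A)`.** -/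
theorem exists_liouvilleSum_le (A : ℕ) : ∃ C, 0 ≤ C ∧ ∀ᶠ N : ℕ in atTop,
    |∑ n ∈ Icc 1 N, (ArithmeticFunction.liouville n : ℝ)| ≤ C * N / Real.log N ^ A := by
  obtain ⟨C, hC, hM⟩ := exists_mertensSum_le A
  obtain ⟨x₀, hx₀⟩ := eventually_atTop.1 hM
  obtain ⟨C', hC', h⟩ := exists_sum_sq_le A hC x₀
  refine ⟨C', hC', h.mono fun N hN => ?_⟩
  rw [sum_liouville_eq]
  refine (abs_sum_le_sum_abs _ _).trans
    (hN (fun _ k => |∑ m ∈ Icc 1 k, (μ m : ℝ)|) (fun _ k => ?_) fun _ k hk => ?_)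
  · refine (abs_sum_le_sum_abs _ _).trans ((sum_le_card_nsmul _ _ 1 fun m _ => ?_).trans ?_)
    · exact_mod_cast ArithmeticFunction.abs_moebius_le_one
    · simp
  · have h1 := hx₀ (k : ℝ) hk
    rwa [mertensSum, Nat.floor_natCast] at h1

end FA.SieveConstant
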