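import Mathlib.Analysis.Calculus.DSlope
import Mathlib.Analysis.SpecialFunctions.Integrals.Basic
import Mathlib.NumberTheory.Harmonic.EulerMascheroni
import Mathlib.MeasureTheory.Integral.IntervalIntegral.FundThmCalculus

/-!
# The entire exponential integral and Euler's constant

`Ein x = ∫_0^x (1 - exp (-t)) / t` has `Ein x - log x → γ`, so `g = exp (-Ein)` has
`x g x → exp (-γ)`, and `(x g)' = exp (-x) g`.
-/

set_option autoImplicit false

noncomputable section

namespace FA.SieveConstant

open Finset Filter MeasureTheory intervalIntegral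
open scoped Topology

/-- `(1 - exp (-t)) / t`. -/
def einKernel : ℝ → ℝ := dslope (fun t => -Real.exp (-t)) 0

theorem einKernel_zero : einKernel 0 = 1 := by
  rw [einKernel, dslope_same]
  exact (((hasDerivAt_id (0 : ℝ)).neg.exp).neg.congr_deriv (by simp)).deriv

theorem einKernel_of_ne {t : ℝ} (ht : t ≠ 0) : einKernel t = (1 - Real.exp (-t)) / t := by
  rw [einKernel, dslope_of_ne _ ht, slope_def_field]
  simp only [neg_zero, Real.exp_zero, sub_zero]
  ring

theorem mul_einKernel (t : ℝ) : t * einKernel t = 1 - Real.exp (-t) := by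
  rcases eq_or_ne t 0 with rfl | ht
  · simp
  · rw [einKernel_of_ne ht, mul_div_cancel₀ _ ht]

theorem continuous_einKernel : Continuous einKernel := by
  refine continuous_iff_continuousAt.2 fun t => ?_
  rcases eq_or_ne t 0 with rfl | ht
  · rw [einKernel, continuousAt_dslope_same]
    fun_prop
  · rw [einKernel, continuousAt_dslope_of_ne ht]
    fun_prop

theorem einKernel_nonneg {t : ℝ} (ht : 0 ≤ t) : 0 ≤ einKernel t := by
  rcases ht.eq_or_lt with rfl | h
  · rw [einKernel_zero]
    exact zero_le_one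
  · rw [einKernel_of_ne h.ne']
    exact div_nonneg (sub_nonneg.2 (Real.exp_le_one_iff.2 (by linarith))) ht

theorem einKernel_le_one {t : ℝ} (ht : 0 ≤ t) : einKernel t ≤ 1 := by
  rcases ht.eq_or_lt with rfl | h
  · rw [einKernel_zero]
  · rw [einKernel_of_ne h.ne', div_le_one h]
    linarith [Real.add_one_le_exp (-t)]

/-- `Ein x = ∫_0^x (1 - exp (-t)) / t`. -/
def ein (x : ℝ) : ℝ := ∫ t in (0 : ℝ)..x, einKernel t

theorem hasDerivAt_ein (x : ℝ) : HasDerivAt ein (einKernel x) x :=
  (continuous_einKernel.integral_hasStrictDerivAt 0 x).hasDerivAt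

theorem continuous_ein : Continuous ein :=
  continuous_iff_continuousAt.2 fun x => (hasDerivAt_ein x).continuousAt

theorem ein_nonneg {x : ℝ} (hx : 0 ≤ x) : 0 ≤ ein x :=
  integral_nonneg hx fun _ ht => einKernel_nonneg ht.1

theorem ein_le {x : ℝ} (hx : 0 ≤ x) : ein x ≤ x := by
  refine (integral_mono_on hx (continuous_einKernel.intervalIntegrable _ _)
    (continuous_const.intervalIntegrable _ _) fun _ ht => einKernel_le_one ht.1).trans ?_
  simp

/-- `∫_0^n ∑_{k < n} (1 - t / n) ^ k / n = H_n`. -/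
theorem integral_geom_kernel {n : ℕ} (hn : 0 < n) :
    ∫ t in (0 : ℝ)..n, (∑ k ∈ range n, (1 - t / n) ^ k) / n = (harmonic n : ℝ) := by
  have hn0 : (n : ℝ) ≠ 0 := Nat.cast_ne_zero.2 hn.ne'
  rw [intervalIntegral.integral_div, integral_comp_sub_div
    (fun u => ∑ k ∈ range n, u ^ k) hn0 1, smul_eq_mul, div_self hn0, zero_div, sub_zero, sub_self,
    intervalIntegral.integral_finsetSum fun k _ => (continuous_pow k).intervalIntegrable _ _,
    mul_div_cancel_left₀ _ hn0, harmonic]
  push_cast
  refine sum_congr rfl fun k _ => ?_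
  rw [integral_pow, one_pow, zero_pow (Nat.succ_ne_zero k), sub_zero, one_div]

theorem abs_kernel_sub_le {n : ℕ} {t : ℝ} (hn : 0 < n) (h0 : 0 ≤ t) (htn : t ≤ n) :
    |einKernel t - (∑ k ∈ range n, (1 - t / n) ^ k) / n| ≤ t * Real.exp (-t) / n := by
  have hn0 : (0 : ℝ) < n := Nat.cast_pos.2 hn
  rcases h0.eq_or_lt with rfl | h
  · simp [einKernel_zero, hn0.ne']
  obtain ⟨u, hu⟩ : ∃ u, u = t / n := ⟨_, rfl⟩
  have hu0 : 0 < u := hu ▸ div_pos h hn0
  have hu1 : u ≤ 1 := hu ▸ (div_le_one hn0).2 htn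
  have htu : t = n * u := by rw [hu]; field_simp
  have hgeo : (∑ k ∈ range n, (1 - u) ^ k) / (n : ℝ) = (1 - (1 - u) ^ n) / t := by
    rw [← geom_sum_mul_neg (1 - u) n, htu]
    field_simp
    ring
  rw [← hu, hgeo, einKernel_of_ne h.ne', ← sub_div,
    show 1 - Real.exp (-t) - (1 - (1 - u) ^ n) = (1 - u) ^ n - Real.exp (-t) by ring, abs_div,
    abs_of_pos h, div_le_iff₀ h]
  have hup : (1 - u) ^ n ≤ Real.exp (-t) := by
    rw [htu, show -((n : ℝ) * u) = n * -u by ring, Real.exp_nat_mul]
    exact pow_le_pow_left₀ (by linarith) (by linarith [Real.add_one_le_exp (-u)]) n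
  have hlow : Real.exp (-t) * (1 - t * u) ≤ (1 - u) ^ n := by
    have h1 : 1 - u ^ 2 ≤ (1 - u) * Real.exp u := by
      nlinarith [mul_le_mul_of_nonneg_left (Real.add_one_le_exp u) (show 0 ≤ 1 - u by linarith)]
    have h2 := pow_le_pow_left₀ (show 0 ≤ 1 - u ^ 2 by nlinarith) h1 n
    have h3 := one_add_mul_le_pow (show (-2 : ℝ) ≤ -u ^ 2 by nlinarith) n
    rw [← sub_eq_add_neg] at h3
    rw [mul_pow, ← Real.exp_nat_mul, ← htu] at h2
    calc Real.exp (-t) * (1 - t * u) ≤ Real.exp (-t) * ((1 - u) ^ n * Real.exp t) := by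
          refine mul_le_mul_of_nonneg_left (le_trans (le_of_eq ?_) (h3.trans h2))
            (Real.exp_pos _).le
          rw [htu]
          ring
      _ = (1 - u) ^ n := by
          rw [mul_comm, mul_assoc, ← Real.exp_add]
          simp
  rw [abs_of_nonpos (by linarith), hu] at *
  calc -((1 - t / n) ^ n - Real.exp (-t)) ≤ Real.exp (-t) * (t * (t / n)) := by linarith
    _ = t * Real.exp (-t) / n * t := by ring

theorem integral_mul_exp_neg_le {x : ℝ} (hx : 0 ≤ x) :
    ∫ t in (0 : ℝ)..x, t * Real.exp (-t) ≤ 1 := by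
  rw [integral_eq_sub_of_hasDerivAt (f := fun t => -((t + 1) * Real.exp (-t))) (fun t _ => ?_)
    ((by fun_prop : Continuous fun t : ℝ => t * Real.exp (-t)).intervalIntegrable _ _)]
  · have : 0 ≤ (x + 1) * Real.exp (-x) := mul_nonneg (by linarith) (Real.exp_pos _).le
    simp
    linarith
  · refine ((((hasDerivAt_id t).add_const 1).mul (hasDerivAt_id t).neg.exp).neg).congr_deriv ?_
    simp only [id, Pi.neg_apply]
    ring

theorem abs_ein_sub_harmonic_le {n : ℕ} (hn : 0 < n) : |ein n - (harmonic n : ℝ)| ≤ 1 / n := by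
  have hn0 : (0 : ℝ) ≤ n := Nat.cast_nonneg n
  have hp : Continuous fun t : ℝ => (∑ k ∈ range n, (1 - t / n) ^ k) / n := by fun_prop
  rw [← integral_geom_kernel hn, ein, ← intervalIntegral.integral_sub
    (continuous_einKernel.intervalIntegrable _ _) (hp.intervalIntegrable _ _)]
  refine (abs_integral_le_integral_abs hn0).trans ((integral_mono_on hn0
    ((continuous_einKernel.sub hp).abs.intervalIntegrable _ _)
    ((by fun_prop : Continuous fun t : ℝ => t * Real.exp (-t) / n).intervalIntegrable _ _)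
    fun t ht => abs_kernel_sub_le hn ht.1 ht.2).trans ?_)
  rw [intervalIntegral.integral_div]
  exact div_le_div_of_nonneg_right (integral_mul_exp_neg_le hn0) hn0

/-- **`Ein n - log n → γ`.** -/
theorem tendsto_ein_sub_log : Tendsto (fun n : ℕ => ein n - Real.log n) atTop
    (𝓝 Real.eulerMascheroniConstant) := by
  have h1 : Tendsto (fun n : ℕ => ein n - (harmonic n : ℝ)) atTop (𝓝 0) :=
    squeeze_zero_norm' ((eventually_gt_atTop 0).mono fun n hn => abs_ein_sub_harmonic_le hn)
      tendsto_one_div_atTop_nhds_zero_nat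
  have := h1.add Real.tendsto_harmonic_sub_log
  simpa using this

/-- `g = exp (-Ein)`. -/
def adjWeight (x : ℝ) : ℝ := Real.exp (-ein x)

theorem adjWeight_pos (x : ℝ) : 0 < adjWeight x := Real.exp_pos _

theorem adjWeight_le_one {x : ℝ} (hx : 0 ≤ x) : adjWeight x ≤ 1 :=
  Real.exp_le_one_iff.2 (neg_nonpos.2 (ein_nonneg hx))

theorem one_sub_le_adjWeight {x : ℝ} (hx : 0 ≤ x) : 1 - x ≤ adjWeight x := by
  refine le_trans ?_ (Real.add_one_le_exp _)
  linarith [ein_le hx]

theorem continuous_adjWeight : Continuous adjWeight := by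
  unfold adjWeight
  exact Real.continuous_exp.comp continuous_ein.neg

/-- `(x g)' = exp (-x) g`. -/
theorem hasDerivAt_mul_adjWeight (x : ℝ) :
    HasDerivAt (fun u => u * adjWeight u) (Real.exp (-x) * adjWeight x) x := by
  refine ((hasDerivAt_id x).mul (hasDerivAt_ein x).neg.exp).congr_deriv ?_
  simp only [id, Pi.neg_apply, adjWeight]
  linear_combination (-Real.exp (-ein x)) * mul_einKernel x

/-- **`x g x → exp (-γ)`.** -/
theorem tendsto_mul_adjWeight : Tendsto (fun n : ℕ => (n : ℝ) * adjWeight n) atTop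
    (𝓝 (Real.exp (-Real.eulerMascheroniConstant))) := by
  refine ((Real.continuous_exp.tendsto _).comp tendsto_ein_sub_log.neg).congr' ?_
  filter_upwards [eventually_gt_atTop 0] with n hn
  simp only [Function.comp_apply, adjWeight]
  rw [neg_sub, sub_eq_add_neg, Real.exp_add, Real.exp_log (Nat.cast_pos.2 hn)]

end FA.SieveConstant
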