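import Fermat.Agent.SieveConstant.Ein
import Fermat.Agent.LinearSieve.Sieve
import Mathlib.Analysis.Calculus.ParametricIntervalIntegral

/-!
# The constant of the linear sieve

`Q = F + f` satisfies `(s Q)' = Q (s - 1)` and `s Q = A` on `[1, 2]`, so it is `A` times
Buchstab's function; pairing it with `h (s) = ∫ exp (-s x) g x`, `g = exp (-Ein)`, gives
`A exp (-γ) = lim Q = 2`.
-/

set_option autoImplicit false

noncomputable section

namespace FA.SieveConstant

open Filter MeasureTheory intervalIntegral
open FA.LinearSieve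
open scoped Topology

theorem lowerDefect_of_le_two {s : ℝ} (h : s ≤ 2) : lowerDefect s = 1 := by
  rw [← lowerDefect_two, lowerDefect, lowerDefect]
  refine tsum_congr fun k => ?_
  rw [← defectIter_max (2 * k + 1) s, ← defectIter_max (2 * k + 1) 2]
  have e : iterDom (2 * k + 1) = 2 := by
    rw [iterDom, if_neg (Nat.not_even_two_mul_add_one k)]
  rw [e, max_eq_right h, max_self]

/-- `Q = F + f`. -/
def totalFn (s : ℝ) : ℝ := sieveUpperFn s + sieveLowerFn s

theorem continuous_totalFn : Continuous totalFn :=
  (continuous_const.add continuous_upperDefect).add (continuous_const.sub continuous_lowerDefect)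

theorem totalFn_on_one_two {s : ℝ} (h1 : 1 ≤ s) (h2 : s ≤ 2) : s * totalFn s = linearConst := by
  rw [totalFn, sieveLowerFn, lowerDefect_of_le_two h2, sub_self, add_zero, sieveUpperFn,
    upperDefect_of_le_three h1 (by linarith)]

theorem mul_upperFn_eq {r : ℝ} (hr : 2 ≤ r) :
    r * sieveUpperFn r = linearConst + ∫ t in (2 : ℝ)..r, sieveLowerFn (t - 1) := by
  have hc : Continuous fun t => lowerDefect (t - 1) := continuous_lowerDefect.comp (by fun_prop)
  have hf : Continuous fun t => sieveLowerFn (t - 1) := continuous_const.sub hc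
  have hz : ∀ b, 2 ≤ b → b ≤ 3 → ∫ t in (2 : ℝ)..b, sieveLowerFn (t - 1) = 0 := fun b hb hb3 => by
    rw [integral_congr (g := fun _ => (0 : ℝ)) fun t ht => ?_, intervalIntegral.integral_zero]
    rw [Set.uIcc_of_le hb] at ht
    dsimp only
    rw [sieveLowerFn, lowerDefect_of_le_two (by linarith [ht.2]), sub_self]
  rcases le_total r 3 with h3 | h3
  · rw [hz r hr h3, add_zero, sieveUpperFn, upperDefect_of_le_three (by linarith) h3]
  · rw [← integral_add_adjacent_intervals (hf.intervalIntegrable 2 3) (hf.intervalIntegrable 3 r),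
      hz 3 (by norm_num) le_rfl, zero_add]
    simp only [sieveLowerFn]
    rw [intervalIntegral.integral_sub intervalIntegrable_const (hc.intervalIntegrable _ _),
      ← upperDefect_equation le_rfl h3, intervalIntegral.integral_const, smul_eq_mul, mul_one,
      linearConst, sieveUpperFn]
    ring

theorem mul_lowerFn_eq {r : ℝ} (hr : 2 ≤ r) :
    r * sieveLowerFn r = ∫ t in (2 : ℝ)..r, sieveUpperFn (t - 1) := by
  have hc : Continuous fun t => upperDefect (t - 1) := continuous_upperDefect.comp (by fun_prop)
  simp only [sieveUpperFn]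
  rw [intervalIntegral.integral_add intervalIntegrable_const (hc.intervalIntegrable _ _),
    ← lowerDefect_equation le_rfl hr, lowerDefect_two, intervalIntegral.integral_const, smul_eq_mul,
    mul_one, sieveLowerFn]
  ring

theorem mul_totalFn_eq {r : ℝ} (hr : 2 ≤ r) :
    r * totalFn r = linearConst + ∫ t in (2 : ℝ)..r, totalFn (t - 1) := by
  have hf : Continuous fun t => sieveLowerFn (t - 1) :=
    (continuous_const.sub continuous_lowerDefect).comp (by fun_prop : Continuous fun t : ℝ => t - 1)
  have hF : Continuous fun t => sieveUpperFn (t - 1) :=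
    (continuous_const.add continuous_upperDefect).comp (by fun_prop : Continuous fun t : ℝ => t - 1)
  have h : ∫ t in (2 : ℝ)..r, totalFn (t - 1) =
      (∫ t in (2 : ℝ)..r, sieveUpperFn (t - 1)) + ∫ t in (2 : ℝ)..r, sieveLowerFn (t - 1) := by
    rw [← intervalIntegral.integral_add (hF.intervalIntegrable _ _) (hf.intervalIntegrable _ _)]
    rfl
  rw [h, totalFn, mul_add, mul_upperFn_eq hr, mul_lowerFn_eq hr]
  ring

theorem totalFn_nonneg_le (s : ℝ) :
    |totalFn s - 2| ≤ 11 * Real.exp (3 - max s 1) + 33 * Real.exp (2 - max s 2) := by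
  obtain ⟨h1, h2, h3, h4⟩ := sieveFn_bounds s
  have := Real.exp_pos (3 - max s 1)
  have := Real.exp_pos (2 - max s 2)
  rw [totalFn, abs_le]
  constructor <;> linarith

theorem abs_totalFn_le (s : ℝ) : |totalFn s| ≤ 200 := by
  have h := totalFn_nonneg_le s
  have e2 : Real.exp 2 ≤ 9 := by
    rw [show (2 : ℝ) = 1 + 1 by norm_num, Real.exp_add]
    nlinarith [Real.exp_one_lt_d9, Real.exp_pos 1]
  have h1 : Real.exp (3 - max s 1) ≤ 9 :=
    (Real.exp_le_exp.2 (by linarith [le_max_right s 1])).trans e2
  have h2 : Real.exp (2 - max s 2) ≤ 1 := Real.exp_le_one_iff.2 (by linarith [le_max_right s 2])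
  rw [abs_le] at h ⊢
  constructor <;> linarith

theorem tendsto_totalFn : Tendsto totalFn atTop (𝓝 2) := by
  rw [tendsto_iff_norm_sub_tendsto_zero]
  have h0 := Real.tendsto_exp_neg_atTop_nhds_zero
  have h : Tendsto (fun s : ℝ => 11 * (Real.exp 3 * Real.exp (-s)) +
      33 * (Real.exp 2 * Real.exp (-s))) atTop (𝓝 0) := by
    simpa using ((h0.const_mul (Real.exp 3)).const_mul 11).add
      ((h0.const_mul (Real.exp 2)).const_mul 33)
  refine squeeze_zero' (Eventually.of_forall fun _ => norm_nonneg _) ?_ h
  filter_upwards [eventually_ge_atTop (2 : ℝ)] with s hs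
  have := totalFn_nonneg_le s
  rwa [max_eq_left (by linarith), max_eq_left hs, sub_eq_add_neg (3 : ℝ), sub_eq_add_neg (2 : ℝ) s,
    Real.exp_add, Real.exp_add] at this

/-- The truncated adjoint function. -/
def adjFn (T s : ℝ) : ℝ := ∫ x in (0 : ℝ)..T, Real.exp (-s * x) * adjWeight x

/-- The error of the truncation. -/
def adjTail (T s : ℝ) : ℝ := T * adjWeight T * Real.exp (-s * T)

theorem hasDerivAt_adjFn {T : ℝ} (hT : 0 ≤ T) (s : ℝ) :
    HasDerivAt (adjFn T) (-∫ x in (0 : ℝ)..T, x * (Real.exp (-s * x) * adjWeight x)) s := by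
  have hc := continuous_adjWeight
  have h := (intervalIntegral.hasDerivAt_integral_of_dominated_loc_of_deriv_le (μ := volume)
    (F := fun u x => Real.exp (-u * x) * adjWeight x)
    (F' := fun u x => -(x * (Real.exp (-u * x) * adjWeight x))) (a := 0) (b := T)
    (bound := fun x => x * Real.exp (-(s - 1) * x)) (s := Set.Ioi (s - 1))
    (Ioi_mem_nhds (by linarith)) (Eventually.of_forall fun u =>
      (by fun_prop : Continuous fun x => Real.exp (-u * x) * adjWeight x).aestronglyMeasurable)
    ((by fun_prop : Continuous fun x => Real.exp (-s * x) * adjWeight x).intervalIntegrable _ _)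
    (by fun_prop : Continuous fun x =>
      -(x * (Real.exp (-s * x) * adjWeight x))).aestronglyMeasurable
    (Eventually.of_forall fun x hx u hu => ?_)
    ((by fun_prop : Continuous fun x => x * Real.exp (-(s - 1) * x)).intervalIntegrable _ _)
    (Eventually.of_forall fun x _ u _ => ?_)).2
  · rwa [intervalIntegral.integral_neg] at h
  · rw [Set.uIoc_of_le hT] at hx
    rw [norm_neg, Real.norm_eq_abs, abs_mul, abs_mul, abs_of_pos hx.1, Real.abs_exp,
      abs_of_pos (adjWeight_pos x)]
    refine mul_le_mul_of_nonneg_left ((mul_le_of_le_one_right (Real.exp_pos _).le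
      (adjWeight_le_one hx.1.le)).trans (Real.exp_le_exp.2 ?_)) hx.1.le
    nlinarith [hu.out, hx.1]
  · refine (((((hasDerivAt_id u).neg.mul_const x).exp).mul_const (adjWeight x))).congr_deriv ?_
    simp only [id, Pi.neg_apply]
    ring

/-- The adjoint equation `s h' s = -h (s + 1)`, up to the truncation. -/
theorem adjoint_eq (T s : ℝ) :
    adjFn T (s + 1) - s * ∫ x in (0 : ℝ)..T, x * (Real.exp (-s * x) * adjWeight x) =
      adjTail T s := by
  have hc := continuous_adjWeight
  have hd : ∀ x ∈ Set.uIcc 0 T, HasDerivAt (fun u => u * adjWeight u * Real.exp (-s * u))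
      (Real.exp (-(s + 1) * x) * adjWeight x -
        s * (x * (Real.exp (-s * x) * adjWeight x))) x := fun x _ => by
    refine
      ((hasDerivAt_mul_adjWeight x).mul (((hasDerivAt_id x).const_mul (-s)).exp)).congr_deriv ?_
    simp only [id]
    rw [show -(s + 1) * x = -x + -s * x by ring, Real.exp_add]
    ring
  have h := integral_eq_sub_of_hasDerivAt hd ((by fun_prop : Continuous fun x =>
    Real.exp (-(s + 1) * x) * adjWeight x -
      s * (x * (Real.exp (-s * x) * adjWeight x))).intervalIntegrable _ _)
  rw [intervalIntegral.integral_sub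
    ((by fun_prop : Continuous fun x =>
      Real.exp (-(s + 1) * x) * adjWeight x).intervalIntegrable _ _)
    ((by fun_prop : Continuous fun x =>
      s * (x * (Real.exp (-s * x) * adjWeight x))).intervalIntegrable _ _),
    intervalIntegral.integral_const_mul, zero_mul, zero_mul, sub_zero] at h
  exact h

/-- `h 1 = T g T`. -/
theorem adjFn_one (T : ℝ) : adjFn T 1 = T * adjWeight T := by
  have h := adjoint_eq T 0
  rw [zero_mul, sub_zero, zero_add] at h
  simpa [adjTail] using h

theorem adjFn_bounds {T s : ℝ} (hT : 0 ≤ T) (hs : 0 < s) :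
    1 - Real.exp (-s * T) - 1 / s ≤ s * adjFn T s ∧ s * adjFn T s ≤ 1 ∧ 0 ≤ adjFn T s := by
  have hc := continuous_adjWeight
  have hi : IntervalIntegrable (fun x => Real.exp (-s * x) * adjWeight x) volume 0 T :=
    (by fun_prop : Continuous fun x => Real.exp (-s * x) * adjWeight x).intervalIntegrable _ _
  have e1 : ∫ x in (0 : ℝ)..T, s * Real.exp (-s * x) = 1 - Real.exp (-s * T) := by
    rw [integral_eq_sub_of_hasDerivAt (f := fun x => -Real.exp (-s * x)) (fun x _ => ?_)
      ((by fun_prop : Continuous fun x => s * Real.exp (-s * x)).intervalIntegrable _ _)]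
    · simp only [mul_zero, Real.exp_zero]
      ring
    · refine ((((hasDerivAt_id x).const_mul (-s)).exp).neg).congr_deriv ?_
      simp only [id]
      ring
  have e2 : ∫ x in (0 : ℝ)..T, s * x * Real.exp (-s * x) ≤ 1 / s := by
    rw [integral_eq_sub_of_hasDerivAt (f := fun x => -((x + 1 / s) * Real.exp (-s * x)))
      (fun x _ => ?_)
      ((by fun_prop : Continuous fun x => s * x * Real.exp (-s * x)).intervalIntegrable _ _)]
    · have : 0 ≤ (T + 1 / s) * Real.exp (-s * T) :=
        mul_nonneg (by positivity) (Real.exp_pos _).le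
      simp only [mul_zero, Real.exp_zero, zero_add, mul_one]
      linarith
    · refine ((((hasDerivAt_id x).add_const (1 / s)).mul
        (((hasDerivAt_id x).const_mul (-s)).exp)).neg).congr_deriv ?_
      simp only [id]
      field_simp
      ring
  refine ⟨?_, ?_, integral_nonneg hT fun x _ =>
    mul_nonneg (Real.exp_pos _).le (adjWeight_pos x).le⟩
  · rw [adjFn, ← intervalIntegral.integral_const_mul]
    refine le_trans ?_ (integral_mono_on hT
      ((by fun_prop : Continuous fun x =>
        s * Real.exp (-s * x) - s * x * Real.exp (-s * x)).intervalIntegrable _ _)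
      (hi.const_mul s) fun x hx => ?_)
    · rw [intervalIntegral.integral_sub
        ((by fun_prop : Continuous fun x => s * Real.exp (-s * x)).intervalIntegrable _ _)
        ((by fun_prop : Continuous fun x => s * x * Real.exp (-s * x)).intervalIntegrable _ _), e1]
      linarith
    · have := mul_le_mul_of_nonneg_left (one_sub_le_adjWeight hx.1)
        (show 0 ≤ s * Real.exp (-s * x) from mul_nonneg hs.le (Real.exp_pos _).le)
      linarith
  · rw [adjFn, ← intervalIntegral.integral_const_mul]
    refine (integral_mono_on hT (hi.const_mul s)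
      ((by fun_prop : Continuous fun x => s * Real.exp (-s * x)).intervalIntegrable _ _)
      fun x hx => ?_).trans ?_
    · exact mul_le_mul_of_nonneg_left
        (mul_le_of_le_one_right (Real.exp_pos _).le (adjWeight_le_one hx.1)) hs.le
    · rw [e1]
      linarith [Real.exp_pos (-s * T)]

theorem continuous_adjFn {T : ℝ} (hT : 0 ≤ T) : Continuous (adjFn T) :=
  continuous_iff_continuousAt.2 fun s => (hasDerivAt_adjFn hT s).continuousAt

/-- The pairing which the adjoint equation conserves. -/
def adjPairing (T s : ℝ) : ℝ :=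
  (linearConst + ∫ t in (2 : ℝ)..s, totalFn (t - 1)) * adjFn T s +
    ((∫ t in (0 : ℝ)..s, totalFn t * adjFn T (t + 1)) -
      ∫ t in (0 : ℝ)..(s - 1), totalFn t * adjFn T (t + 1))

theorem hasDerivAt_adjPairing {T : ℝ} (hT : 0 ≤ T) {s : ℝ} (hs : 2 ≤ s) :
    HasDerivAt (adjPairing T) (totalFn s * adjTail T s) s := by
  have hQ : Continuous fun t => totalFn (t - 1) := continuous_totalFn.comp (by fun_prop)
  have hK : Continuous fun t => totalFn t * adjFn T (t + 1) :=
    continuous_totalFn.mul ((continuous_adjFn hT).comp (by fun_prop))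
  have d1 := ((hQ.integral_hasStrictDerivAt 2 s).hasDerivAt.const_add linearConst).mul
    (hasDerivAt_adjFn hT s)
  have d2 := (hK.integral_hasStrictDerivAt 0 s).hasDerivAt
  have d3 := (hK.integral_hasStrictDerivAt 0 (s - 1)).hasDerivAt.comp s
    ((hasDerivAt_id s).sub_const 1)
  refine ((d1.add (d2.sub d3)).congr_deriv ?_).congr_of_eventuallyEq
    (Eventually.of_forall fun x => rfl)
  rw [← mul_totalFn_eq hs, ← adjoint_eq T s]
  simp only [sub_add_cancel]
  ring

theorem abs_adjPairing_sub_le {T S : ℝ} (hT : 0 < T) (hS : 2 ≤ S) :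
    |adjPairing T S - adjPairing T 2| ≤ 200 * adjWeight T := by
  have hc : Continuous fun s => totalFn s * adjTail T s := by
    have := continuous_totalFn
    unfold adjTail
    fun_prop
  have hab : Continuous fun s => 200 * adjWeight T * (T * Real.exp (-s * T)) := by fun_prop
  rw [← integral_eq_sub_of_hasDerivAt (f := adjPairing T) (fun s hs => hasDerivAt_adjPairing hT.le
    (by rw [Set.uIcc_of_le hS] at hs; exact hs.1)) (hc.intervalIntegrable _ _)]
  refine (abs_integral_le_integral_abs hS).trans
    ((integral_mono_on hS (hc.abs.intervalIntegrable _ _)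
    (hab.intervalIntegrable _ _) fun s _ => ?_).trans ?_)
  · rw [abs_mul, adjTail, abs_of_pos (mul_pos (mul_pos hT (adjWeight_pos T)) (Real.exp_pos _))]
    refine (mul_le_mul_of_nonneg_right (abs_totalFn_le s)
      (mul_pos (mul_pos hT (adjWeight_pos T)) (Real.exp_pos _)).le).trans (le_of_eq (by ring))
  · rw [intervalIntegral.integral_const_mul]
    refine mul_le_of_le_one_right (mul_nonneg (by norm_num) (adjWeight_pos T).le) ?_
    rw [integral_eq_sub_of_hasDerivAt (f := fun u => -Real.exp (-u * T)) (fun u _ => ?_)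
      ((by fun_prop : Continuous fun u => T * Real.exp (-u * T)).intervalIntegrable _ _)]
    · have h2 : Real.exp (-2 * T) ≤ 1 := Real.exp_le_one_iff.2 (by linarith)
      linarith [Real.exp_pos (-S * T)]
    · refine ((((hasDerivAt_id u).neg.mul_const T).exp).neg).congr_deriv ?_
      simp only [id, Pi.neg_apply]
      ring

theorem tendsto_adjPairing {T : ℝ} (hT : 0 < T) : Tendsto (adjPairing T) atTop (𝓝 2) := by
  have hz : Tendsto (fun s : ℝ => Real.exp (-s * T) + 1 / s) atTop (𝓝 0) := by
    have h1 := Real.tendsto_exp_neg_atTop_nhds_zero.comp (tendsto_id.atTop_mul_const hT)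
    have h2 := tendsto_inv_atTop_zero.congr fun s : ℝ => (one_div s).symm
    simpa [Function.comp_def, neg_mul] using h1.add h2
  have h1 : Tendsto (fun s => s * adjFn T s) atTop (𝓝 1) := by
    refine tendsto_of_tendsto_of_tendsto_of_le_of_le'
      (by simpa using hz.const_sub 1) tendsto_const_nhds ?_ ?_ <;>
      filter_upwards [eventually_gt_atTop (0 : ℝ)] with s hs
    · have h := (adjFn_bounds hT.le hs).1
      rw [neg_mul, one_div] at h
      linarith
    · exact (adjFn_bounds hT.le hs).2.1
  have h2 : Tendsto (fun s => (∫ t in (0 : ℝ)..s, totalFn t * adjFn T (t + 1)) -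
      ∫ t in (0 : ℝ)..(s - 1), totalFn t * adjFn T (t + 1)) atTop (𝓝 0) := by
    have hK : Continuous fun t => totalFn t * adjFn T (t + 1) :=
      continuous_totalFn.mul ((continuous_adjFn hT.le).comp (by fun_prop))
    refine squeeze_zero_norm' ?_ (tendsto_const_nhds.div_atTop tendsto_id : Tendsto
      (fun s : ℝ => (200 : ℝ) / s) atTop (𝓝 0))
    filter_upwards [eventually_ge_atTop (2 : ℝ)] with s hs
    rw [integral_interval_sub_left (hK.intervalIntegrable _ _) (hK.intervalIntegrable _ _)]
    refine (norm_integral_le_of_norm_le_const (C := 200 / s) fun t ht => ?_).trans (by simp)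
    rw [Set.uIoc_of_le (by linarith)] at ht
    have hb := adjFn_bounds hT.le (show 0 < t + 1 by linarith [ht.1])
    have h3 : adjFn T (t + 1) ≤ 1 / s := by
      rw [le_div_iff₀ (by linarith), mul_comm]
      exact (mul_le_mul_of_nonneg_right (show s ≤ t + 1 by linarith [ht.1]) hb.2.2).trans hb.2.1
    rw [Real.norm_eq_abs, abs_mul, abs_of_nonneg hb.2.2, div_eq_mul_one_div (200 : ℝ)]
    exact mul_le_mul (abs_totalFn_le t) h3 hb.2.2 (by norm_num)
  have h := (tendsto_totalFn.mul h1).add h2
  rw [mul_one, add_zero] at h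
  refine h.congr' ?_
  filter_upwards [eventually_ge_atTop (2 : ℝ)] with s hs
  rw [adjPairing, ← mul_totalFn_eq hs]
  ring

theorem abs_adjPairing_two_sub_le {T : ℝ} (hT : 0 < T) :
    |adjPairing T 2 - linearConst * (T * adjWeight T)| ≤
      linearConst * (T * adjWeight T * Real.exp (-T)) := by
  have hA : 0 ≤ linearConst := le_trans (by norm_num) three_le_linearConst
  have hK : Continuous fun t => totalFn t * adjFn T (t + 1) :=
    continuous_totalFn.mul ((continuous_adjFn hT.le).comp (by fun_prop))
  have hh := continuous_adjFn hT.le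
  have hn : ∀ t ∈ Set.uIcc (1 : ℝ) 2, t ≠ 0 := fun t ht => by
    rw [Set.uIcc_of_le (by norm_num)] at ht
    linarith [ht.1]
  have htail : IntervalIntegrable (fun t => adjTail T t / t) volume 1 2 :=
    (ContinuousOn.div (by unfold adjTail; fun_prop) continuousOn_id hn).intervalIntegrable
  have hint : IntervalIntegrable (fun t => adjFn T (t + 1) / t) volume 1 2 :=
    (ContinuousOn.div ((hh.comp (by fun_prop)).continuousOn) continuousOn_id
      hn).intervalIntegrable
  have hFTC : ∫ t in (1 : ℝ)..2, (adjFn T (t + 1) / t - adjTail T t / t) =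
      adjFn T 1 - adjFn T 2 := by
    rw [integral_eq_sub_of_hasDerivAt (f := fun t => -adjFn T t) (fun t ht => ?_)
      (hint.sub htail)]
    · ring
    · refine (hasDerivAt_adjFn hT.le t).neg.congr_deriv ?_
      have := hn t ht
      rw [← adjoint_eq T t]
      field_simp
      ring_nf
  rw [intervalIntegral.integral_sub hint htail, adjFn_one] at hFTC
  have e : adjPairing T 2 = linearConst * adjFn T 2 +
      linearConst * ∫ t in (1 : ℝ)..2, adjFn T (t + 1) / t := by
    rw [adjPairing, integral_same, add_zero,
      integral_interval_sub_left (hK.intervalIntegrable _ _) (hK.intervalIntegrable _ _),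
      ← intervalIntegral.integral_const_mul]
    rw [show (2 : ℝ) - 1 = 1 by norm_num, add_right_inj]
    refine integral_congr fun t ht => ?_
    rw [Set.uIcc_of_le (by norm_num)] at ht
    have h0 : t ≠ 0 := by linarith [ht.1]
    rw [← totalFn_on_one_two ht.1 ht.2]
    field_simp
  obtain ⟨R, hR⟩ : ∃ R, R = ∫ t in (1 : ℝ)..2, adjTail T t / t := ⟨_, rfl⟩
  rw [← hR] at hFTC
  have hR0 : 0 ≤ R ∧ R ≤ T * adjWeight T * Real.exp (-T) := by
    have h0 : 0 ≤ T * adjWeight T := (mul_pos hT (adjWeight_pos T)).le
    refine ⟨hR ▸ integral_nonneg (by norm_num) fun t ht =>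
      div_nonneg (mul_nonneg h0 (Real.exp_pos _).le) (by linarith [ht.1]), ?_⟩
    rw [hR]
    refine (integral_mono_on (g := fun _ => T * adjWeight T * Real.exp (-T)) (by norm_num) htail
      intervalIntegrable_const fun t ht => ?_).trans
      (le_of_eq ((intervalIntegral.integral_const _).trans (by norm_num)))
    refine (div_le_self (mul_nonneg h0 (Real.exp_pos _).le) ht.1).trans
      (mul_le_mul_of_nonneg_left (Real.exp_le_exp.2 ?_) h0)
    nlinarith [ht.1]
  rw [e, show linearConst * adjFn T 2 + linearConst * (∫ t in (1 : ℝ)..2, adjFn T (t + 1) / t) -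
    linearConst * (T * adjWeight T) = linearConst * R by
      linear_combination linearConst * hFTC, abs_of_nonneg (mul_nonneg hA hR0.1)]
  exact mul_le_mul_of_nonneg_left hR0.2 hA

/-- **`A = 2 exp γ`.** -/
theorem linearConst_eq : linearConst = 2 * Real.exp Real.eulerMascheroniConstant := by
  obtain ⟨L, hL⟩ : ∃ L, L = Real.exp (-Real.eulerMascheroniConstant) := ⟨_, rfl⟩
  have hg := tendsto_mul_adjWeight
  rw [← hL] at hg
  have hw : Tendsto (fun n : ℕ => adjWeight n) atTop (𝓝 0) := by
    refine (hg.div_atTop tendsto_natCast_atTop_atTop).congr' ?_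
    filter_upwards [eventually_gt_atTop 0] with n hn
    rw [mul_div_cancel_left₀ _ (Nat.cast_ne_zero.2 hn.ne')]
  have he : Tendsto (fun n : ℕ => Real.exp (-(n : ℝ))) atTop (𝓝 0) :=
    Real.tendsto_exp_neg_atTop_nhds_zero.comp tendsto_natCast_atTop_atTop
  have hbound : Tendsto (fun n : ℕ => linearConst * ((n : ℝ) * adjWeight n)) atTop (𝓝 2) := by
    have hz : Tendsto (fun n : ℕ => linearConst * ((n : ℝ) * adjWeight n * Real.exp (-(n : ℝ))) +
        200 * adjWeight n) atTop (𝓝 0) := by
      simpa using ((hg.mul he).const_mul linearConst).add (hw.const_mul 200)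
    rw [tendsto_iff_norm_sub_tendsto_zero]
    refine squeeze_zero' (Eventually.of_forall fun _ => norm_nonneg _) ?_ hz
    filter_upwards [eventually_gt_atTop 0] with n hn
    have hn0 : (0 : ℝ) < n := Nat.cast_pos.2 hn
    have h1 := abs_adjPairing_two_sub_le hn0
    have h2 : |2 - adjPairing n 2| ≤ 200 * adjWeight n :=
      le_of_tendsto ((tendsto_adjPairing hn0).sub_const (adjPairing n 2)).abs
        ((eventually_ge_atTop 2).mono fun S hS => abs_adjPairing_sub_le hn0 hS)
    rw [Real.norm_eq_abs, abs_sub_comm]
    rw [abs_le] at h1 h2 ⊢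
    constructor <;> linarith
  have h := tendsto_nhds_unique (hg.const_mul linearConst) hbound
  rw [hL, Real.exp_neg, ← div_eq_mul_inv, div_eq_iff (Real.exp_pos _).ne'] at h
  exact h

/-- Buchstab's function, as a multiple of `F + f`. -/
def buchstab (u : ℝ) : ℝ := totalFn u / linearConst

theorem linearConst_pos : 0 < linearConst := lt_of_lt_of_le (by norm_num) three_le_linearConst

theorem mul_buchstab_eq {u : ℝ} (hu : 2 ≤ u) :
    u * buchstab u = 1 + ∫ t in (2 : ℝ)..u, buchstab (t - 1) := by
  have := linearConst_pos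
  unfold buchstab
  rw [intervalIntegral.integral_div, mul_div_assoc', mul_totalFn_eq hu]
  field_simp

theorem buchstab_of_le_two {u : ℝ} (h1 : 1 ≤ u) (h2 : u ≤ 2) : u * buchstab u = 1 := by
  rw [buchstab, mul_div_assoc', totalFn_on_one_two h1 h2, div_self linearConst_pos.ne']

theorem continuous_buchstab : Continuous buchstab := continuous_totalFn.div_const _

theorem tendsto_buchstab :
    Tendsto buchstab atTop (𝓝 (Real.exp (-Real.eulerMascheroniConstant))) := by
  have h := tendsto_totalFn.div_const linearConst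
  rwa [linearConst_eq, div_mul_eq_div_div, div_self two_ne_zero, one_div, ← Real.exp_neg,
    ← linearConst_eq] at h

/-- The equation determines the function. -/
theorem buchstab_unique {w : ℝ → ℝ}
    (h1 : ∀ u, 1 ≤ u → u ≤ 2 → u * w u = 1)
    (h2 : ∀ u, 2 ≤ u → u * w u = 1 + ∫ t in (2 : ℝ)..u, w (t - 1)) :
    ∀ u, 1 ≤ u → w u = buchstab u := by
  have key : ∀ n : ℕ, ∀ u, 1 ≤ u → u ≤ (n : ℝ) + 2 → w u = buchstab u := by
    intro n
    induction n with
    | zero =>
      intro u hu1 hu2
      norm_num at hu2
      exact mul_left_cancel₀ (show u ≠ 0 by linarith)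
        ((h1 u hu1 hu2).trans (buchstab_of_le_two hu1 hu2).symm)
    | succ n ih =>
      intro u hu1 hu2
      push_cast at hu2
      rcases le_or_gt u 2 with h | h
      · exact mul_left_cancel₀ (show u ≠ 0 by linarith)
          ((h1 u hu1 h).trans (buchstab_of_le_two hu1 h).symm)
      · refine mul_left_cancel₀ (show u ≠ 0 by linarith) ?_
        rw [h2 u h.le, mul_buchstab_eq h.le]
        refine congrArg (1 + ·) (integral_congr fun t ht => ?_)
        rw [Set.uIcc_of_le h.le] at ht
        exact ih (t - 1) (by linarith [ht.1]) (by linarith [ht.2])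
  intro u hu
  exact key ⌈u⌉₊ u hu ((Nat.le_ceil u).trans (by linarith))

end FA.SieveConstant
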