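import Fermat.Agent.AlmostGoldbach.Singular
import Fermat.Agent.LinearSieve.Mertens
import Fermat.Agent.Root.SummaryMertensThird

/-!
# The product of the sieve and the singular series

For even `M ≤ x` and `z = x ^ a`, `∏_{p < z, p ∤ M} (1 - 1 / (p - 1))` is
`exp (-γ) 𝔖 M / log z` up to a factor `1 + o (1)`, `𝔖` the singular series of Goldbach's problem.
-/

set_option autoImplicit false

noncomputable section

namespace FA.SieveConstant

open Finset Filter
open FA.CombinatorialSieve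
open FA.AlmostGoldbach (pairTerm pairSeries)
open scoped Topology

/-- The Euler factor of the singular series. -/
def pairFactor (n p : ℕ) : ℝ := 1 + pairTerm n p

theorem pairFactor_eq (n : ℕ) {p : ℕ} (hp : p.Prime) :
    pairFactor n p = 1 + (if p ∣ n then (p : ℝ) - 1 else -1) / ((p : ℝ) - 1) ^ 2 := by
  rw [pairFactor, AlmostGoldbach.pairTerm_apply, ThreePrimes.ramanujan_prime n hp,
    ThreePrimes.moebiusR, ArithmeticFunction.intCoe_apply,
    ArithmeticFunction.moebius_apply_prime hp, Nat.totient_prime hp, Nat.cast_sub hp.one_lt.le]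
  simp

theorem pairFactor_dvd {n p : ℕ} (hp : p.Prime) (h : p ∣ n) :
    pairFactor n p = (p : ℝ) / ((p : ℝ) - 1) := by
  have : (p : ℝ) - 1 ≠ 0 := sub_ne_zero.2 (Nat.one_lt_cast.2 hp.one_lt).ne'
  rw [pairFactor_eq n hp, if_pos h]
  field_simp
  ring

theorem pairFactor_not_dvd {n p : ℕ} (hp : p.Prime) (h : ¬ p ∣ n) :
    pairFactor n p = 1 - 1 / ((p : ℝ) - 1) ^ 2 := by
  rw [pairFactor_eq n hp, if_neg h]
  ring

theorem pairFactor_pos {n p : ℕ} (hn : 2 ∣ n) (hp : p.Prime) : 0 < pairFactor n p := by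
  have h2 : (2 : ℝ) ≤ p := Nat.ofNat_le_cast.2 hp.two_le
  by_cases h : p ∣ n
  · rw [pairFactor_dvd hp h]
    exact div_pos (by linarith) (by linarith)
  · have h3 : (3 : ℝ) ≤ p := by
      have : p ≠ 2 := fun e => h (e ▸ hn)
      have := hp.two_le
      exact_mod_cast (show 3 ≤ p by omega)
    rw [pairFactor_not_dvd hp h, sub_pos, div_lt_one (by nlinarith)]
    nlinarith

theorem tendsto_prod_pairFactor {n : ℕ} (hn : n ≠ 0) :
    Tendsto (fun k : ℕ => ∏ p ∈ k.primesBelow, pairFactor n p) atTop (𝓝 (pairSeries n)) := by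
  refine ((AlmostGoldbach.pairTerm_isMultiplicative n).eulerProduct
    (AlmostGoldbach.summable_pair hn)).congr fun k => prod_congr rfl fun p hp => ?_
  rw [Nat.mem_primesBelow] at hp
  rw [tsum_eq_sum (s := range 2) fun e he => ?_]
  · simp [sum_range_succ, (AlmostGoldbach.pairTerm_isMultiplicative n).1, pairFactor]
  · rw [mem_range] at he
    rw [AlmostGoldbach.pairTerm_apply, ThreePrimes.moebiusR, ArithmeticFunction.intCoe_apply,
      ArithmeticFunction.moebius_apply_prime_pow hp.2 (by omega), if_neg (by omega)]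
    simp

theorem one_sub_sum_le_prod {T : Finset ℕ} {f : ℕ → ℝ} (h0 : ∀ p ∈ T, 0 ≤ f p)
    (h1 : ∀ p ∈ T, f p ≤ 1) : 1 - ∑ p ∈ T, f p ≤ ∏ p ∈ T, (1 - f p) := by
  classical
  induction T using Finset.induction with
  | empty => simp
  | @insert a s ha ih =>
    rw [sum_insert ha, prod_insert ha]
    have h := ih (fun p hp => h0 p (mem_insert_of_mem hp)) fun p hp => h1 p (mem_insert_of_mem hp)
    have ha0 := h0 a (mem_insert_self a s)
    have hm := mul_le_mul_of_nonneg_left h (sub_nonneg.2 (h1 a (mem_insert_self a s)))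
    have hs : 0 ≤ ∑ p ∈ s, f p := sum_nonneg fun p hp => h0 p (mem_insert_of_mem hp)
    nlinarith [mul_nonneg ha0 hs]

/-- The tail of the Euler product. -/
theorem pairSeries_bounds {n : ℕ} {z : ℝ} (hn0 : n ≠ 0) (hn : 2 ∣ n) (hz : 4 ≤ z) :
    (∏ p ∈ (⌈z⌉₊).primesBelow, pairFactor n p) * (1 - 8 / z) ≤ pairSeries n ∧
      pairSeries n ≤ (∏ p ∈ (⌈z⌉₊).primesBelow, pairFactor n p) *
        Real.exp (Real.log n / (Real.log z * (z - 1))) := by
  obtain ⟨m, hm⟩ : ∃ m, m = ⌈z⌉₊ := ⟨_, rfl⟩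
  rw [← hm]
  have hP0 : 0 ≤ ∏ p ∈ m.primesBelow, pairFactor n p :=
    prod_nonneg fun p hp => (pairFactor_pos hn (Nat.mem_primesBelow.1 hp).2).le
  have hlz : 0 < Real.log z := Real.log_pos (by linarith)
  have key : ∀ k : ℕ, m ≤ k →
      (∏ p ∈ m.primesBelow, pairFactor n p) * (1 - 8 / z) ≤ ∏ p ∈ k.primesBelow, pairFactor n p ∧
      ∏ p ∈ k.primesBelow, pairFactor n p ≤ (∏ p ∈ m.primesBelow, pairFactor n p) *
        Real.exp (Real.log n / (Real.log z * (z - 1))) := by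
    intro k hk
    obtain ⟨T, hT⟩ : ∃ T, T = k.primesBelow.filter fun p => m ≤ p := ⟨_, rfl⟩
    have hTz : ∀ p ∈ T, p.Prime ∧ z ≤ p := fun p hp => by
      rw [hT, mem_filter, Nat.mem_primesBelow] at hp
      exact ⟨hp.1.2, (Nat.le_ceil z).trans (hm ▸ Nat.cast_le.2 hp.2)⟩
    have e : ∏ p ∈ k.primesBelow, pairFactor n p =
        (∏ p ∈ m.primesBelow, pairFactor n p) * ∏ p ∈ T, pairFactor n p := by
      rw [hT, ← prod_filter_not_mul_prod_filter k.primesBelow (fun p => m ≤ p)]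
      congr 1
      refine prod_congr ?_ fun _ _ => rfl
      ext p
      simp only [mem_filter, Nat.mem_primesBelow]
      exact ⟨fun h => ⟨by omega, h.1.2⟩, fun h => ⟨⟨by omega, h.2⟩, by omega⟩⟩
    rw [e]
    refine ⟨mul_le_mul_of_nonneg_left ?_ hP0, mul_le_mul_of_nonneg_left ?_ hP0⟩
    · refine le_trans ?_ ((one_sub_sum_le_prod (T := T) (f := fun p => 1 / ((p : ℝ) - 1) ^ 2)
        (fun p _ => by positivity) fun p hp => ?_).trans (prod_le_prod (fun p hp => ?_)
          fun p hp => ?_))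
      · refine sub_le_sub_left ?_ 1
        refine (sum_le_sum (g := fun p : ℕ => 4 * ((p : ℝ) ^ 2)⁻¹) fun p hp => ?_).trans ?_
        · have h4 : (4 : ℝ) ≤ p := hz.trans (hTz p hp).2
          rw [← div_eq_mul_inv, div_le_div_iff₀ (by nlinarith) (by positivity)]
          nlinarith
        · rw [← mul_sum]
          have hr : 2 ≤ m := by
            have : (4 : ℝ) ≤ m := hz.trans (hm ▸ Nat.le_ceil z)
            exact_mod_cast (show (2 : ℝ) ≤ m by linarith)
          refine (mul_le_mul_of_nonneg_left (LinearSieve.sum_inv_sq_ge_le hr fun p hp => ?_)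
            (by norm_num)).trans ?_
          · rw [hT, mem_filter] at hp
            exact hp.2
          · rw [mul_div_assoc', show (4 : ℝ) * 2 = 8 by norm_num]
            exact div_le_div_of_nonneg_left (by norm_num) (by linarith) (hm ▸ Nat.le_ceil z)
      · have h4 : (4 : ℝ) ≤ p := hz.trans (hTz p hp).2
        rw [div_le_one (by nlinarith)]
        nlinarith
      · have h4 : (4 : ℝ) ≤ p := hz.trans (hTz p hp).2
        rw [sub_nonneg, div_le_one (by nlinarith)]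
        nlinarith
      · have h4 : (4 : ℝ) ≤ p := hz.trans (hTz p hp).2
        have h0 : 0 ≤ 1 / ((p : ℝ) - 1) ^ 2 := by positivity
        by_cases hd : p ∣ n
        · rw [pairFactor_dvd (hTz p hp).1 hd]
          have : (1 : ℝ) ≤ (p : ℝ) / ((p : ℝ) - 1) := by
            rw [le_div_iff₀ (by linarith)]
            linarith
          linarith
        · rw [pairFactor_not_dvd (hTz p hp).1 hd]
    · refine (prod_le_prod (g := fun p : ℕ => Real.exp (if p ∣ n then 1 / (z - 1) else 0))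
        (fun p hp => (pairFactor_pos hn (hTz p hp).1).le) fun p hp => ?_).trans ?_
      · obtain ⟨hpp, hpz⟩ := hTz p hp
        split_ifs with hd
        · rw [pairFactor_dvd hpp hd]
          refine le_trans ?_ (Real.add_one_le_exp _)
          rw [show (p : ℝ) / ((p : ℝ) - 1) = 1 / ((p : ℝ) - 1) + 1 by
            have : (p : ℝ) - 1 ≠ 0 := by linarith
            field_simp
            ring]
          linarith [one_div_le_one_div_of_le (show 0 < z - 1 by linarith)
            (show z - 1 ≤ (p : ℝ) - 1 by linarith)]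
        · rw [pairFactor_not_dvd hpp hd, Real.exp_zero]
          exact sub_le_self 1 (by positivity)
      · rw [← Real.exp_sum, Real.exp_le_exp, ← sum_filter, sum_const, nsmul_eq_mul,
          mul_one_div, div_le_div_iff₀ (by linarith) (mul_pos hlz (by linarith))]
        have h1 : (#(T.filter fun p => p ∣ n) : ℝ) * Real.log z ≤ Real.log n := by
          rw [← nsmul_eq_mul]
          refine (card_nsmul_le_sum _ (fun p : ℕ => Real.log p) _ fun p hp => ?_).trans
            (sum_log_dvd_le hn0 fun p hp => ?_)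
          · exact Real.log_le_log (by linarith) (hTz p (mem_filter.1 hp).1).2
          · exact ⟨(hTz p (mem_filter.1 hp).1).1, (mem_filter.1 hp).2⟩
        nlinarith [mul_le_mul_of_nonneg_right h1 (show 0 ≤ z - 1 by linarith)]
  have hlim := tendsto_prod_pairFactor hn0
  exact ⟨ge_of_tendsto hlim ((eventually_ge_atTop m).mono fun k hk => (key k hk).1),
    le_of_tendsto hlim ((eventually_ge_atTop m).mono fun k hk => (key k hk).2)⟩

/-- The product of the sieve, split. -/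
theorem sieveProd_eq {M : ℕ} (hM : 2 ∣ M) (z : ℝ) :
    ∏ p ∈ sievingPrimes z M, (1 - invPhi p) =
      (∏ p ∈ (⌈z⌉₊).primesBelow, (1 - (p : ℝ)⁻¹)) *
        ∏ p ∈ (⌈z⌉₊).primesBelow, pairFactor M p := by
  rw [← prod_mul_distrib]
  refine prod_subset_one_on_sdiff (fun p hp => ?_) (fun p hp => ?_) fun p hp => ?_
  · rw [mem_sievingPrimes] at hp
    exact Nat.mem_primesBelow.2 ⟨Nat.lt_ceil.2 hp.2.1, hp.1⟩
  · simp only [Finset.mem_sdiff, mem_sievingPrimes, Nat.mem_primesBelow, Nat.lt_ceil] at hp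
    have hd : p ∣ M := not_not.1 fun h => hp.2 ⟨hp.1.2, hp.1.1, h⟩
    have h1 : (p : ℝ) - 1 ≠ 0 := sub_ne_zero.2 (Nat.one_lt_cast.2 hp.1.2.one_lt).ne'
    have h0 : (p : ℝ) ≠ 0 := Nat.cast_ne_zero.2 hp.1.2.ne_zero
    rw [pairFactor_dvd hp.1.2 hd]
    field_simp
  · obtain ⟨hpp, -, hd⟩ := mem_sievingPrimes.1 hp
    have h3 : (3 : ℝ) ≤ p := by
      have : p ≠ 2 := fun e => hd (e ▸ hM)
      have := hpp.two_le
      exact_mod_cast (show 3 ≤ p by omega)
    have h1 : (p : ℝ) - 1 ≠ 0 := by linarith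
    have h0 : (p : ℝ) ≠ 0 := by linarith
    rw [pairFactor_not_dvd hpp hd, invPhi_apply, Nat.totient_prime hpp, Nat.cast_sub hpp.one_le,
      Nat.cast_one]
    field_simp
    ring

theorem pairSeries_pos {n : ℕ} (hn0 : n ≠ 0) (hn : 2 ∣ n) : 0 < pairSeries n :=
  lt_of_lt_of_le (by norm_num) (AlmostGoldbach.half_le_pairSeries hn0 (even_iff_two_dvd.2 hn))

/-- `log z ∏_{p < z} (1 - 1 / p) → exp (-γ)`. -/
theorem tendsto_log_mul_prod_below :
    Tendsto (fun z : ℝ => Real.log z * ∏ p ∈ (⌈z⌉₊).primesBelow, (1 - (p : ℝ)⁻¹)) atTop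
      (𝓝 (Real.exp (-Real.eulerMascheroniConstant))) := by
  have ht : Tendsto (fun z : ℝ => ((⌈z⌉₊ - 1 : ℕ) : ℝ)) atTop atTop :=
    tendsto_natCast_atTop_atTop.comp
      ((tendsto_sub_atTop_nat 1).comp tendsto_nat_ceil_atTop)
  have h := MertensThird.Summary.mertens_third.comp ht
  have hr : Tendsto (fun z : ℝ => Real.log z / Real.log ((⌈z⌉₊ - 1 : ℕ) : ℝ)) atTop (𝓝 1) := by
    have hz : Tendsto (fun z : ℝ => 1 + 2 / Real.log ((⌈z⌉₊ - 1 : ℕ) : ℝ)) atTop (𝓝 1) := by
      simpa using ((Real.tendsto_log_atTop.comp ht).const_div_atTop 2).const_add 1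
    refine tendsto_of_tendsto_of_tendsto_of_le_of_le' tendsto_const_nhds hz ?_ ?_ <;>
      filter_upwards [eventually_ge_atTop (4 : ℝ)] with z hz
    all_goals
      have hc : 4 ≤ ⌈z⌉₊ := by exact_mod_cast hz.trans (Nat.le_ceil z)
      have hm : (3 : ℝ) ≤ ((⌈z⌉₊ - 1 : ℕ) : ℝ) := Nat.ofNat_le_cast.2 (by omega)
      have hlt : ((⌈z⌉₊ - 1 : ℕ) : ℝ) < z := Nat.lt_ceil.1 (by omega)
      have hl : 0 < Real.log ((⌈z⌉₊ - 1 : ℕ) : ℝ) := Real.log_pos (by linarith)
    · rw [le_div_iff₀ hl, one_mul]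
      exact Real.log_le_log (by linarith) hlt.le
    · have hle : z ≤ 2 * ((⌈z⌉₊ - 1 : ℕ) : ℝ) := by
        refine (Nat.le_ceil z).trans ?_
        exact_mod_cast (show ⌈z⌉₊ ≤ 2 * (⌈z⌉₊ - 1) by omega)
      have h2 := Real.log_le_log (by linarith) hle
      rw [Real.log_mul two_ne_zero (by linarith)] at h2
      rw [div_le_iff₀ hl, add_mul, one_mul, div_mul_cancel₀ _ hl.ne']
      linarith [Real.log_two_lt_d9]
  have h' := hr.mul h
  rw [one_mul] at h'
  refine h'.congr' ?_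
  filter_upwards [eventually_ge_atTop (4 : ℝ)] with z hz
  have hc : 4 ≤ ⌈z⌉₊ := by exact_mod_cast hz.trans (Nat.le_ceil z)
  have hl : Real.log ((⌈z⌉₊ - 1 : ℕ) : ℝ) ≠ 0 :=
    (Real.log_pos (Nat.one_lt_cast.2 (by omega))).ne'
  simp only [Function.comp_apply, Nat.floor_natCast]
  rw [← mul_assoc, div_mul_cancel₀ _ hl]
  congr 1
  refine prod_congr ?_ fun _ _ => rfl
  ext p
  simp only [mem_filter, mem_Icc, Nat.mem_primesBelow]
  exact ⟨fun h => ⟨by omega, h.2⟩, fun h => ⟨⟨h.2.one_le, by omega⟩, h.2⟩⟩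

/-- **The product of the sieve.** -/
theorem eventually_sieveProd_asymp {a ε : ℝ} (ha : 0 < a) (hε : 0 < ε) :
    ∀ᶠ x : ℕ in atTop, ∀ M : ℕ, 2 ∣ M → 0 < M → M ≤ x →
      |(∏ p ∈ sievingPrimes ((x : ℝ) ^ a) M, (1 - invPhi p)) * (a * Real.log x) -
        Real.exp (-Real.eulerMascheroniConstant) * pairSeries M| ≤ ε * pairSeries M := by
  obtain ⟨L, hL⟩ : ∃ L, L = Real.exp (-Real.eulerMascheroniConstant) := ⟨_, rfl⟩
  have hL0 : 0 < L := hL ▸ Real.exp_pos _
  have hzt : Tendsto (fun x : ℕ => (x : ℝ) ^ a) atTop atTop :=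
    (tendsto_rpow_atTop ha).comp tendsto_natCast_atTop_atTop
  have hu : Tendsto (fun x : ℕ => Real.log ((x : ℝ) ^ a) *
      (∏ p ∈ (⌈(x : ℝ) ^ a⌉₊).primesBelow, (1 - (p : ℝ)⁻¹)) / (1 - 8 / (x : ℝ) ^ a)) atTop
      (𝓝 L) := by
    have h := ((tendsto_const_nhds (x := (8 : ℝ))).div_atTop hzt).const_sub 1
    simpa [hL, Function.comp_def, Pi.div_def] using
      (tendsto_log_mul_prod_below.comp hzt).div h (by norm_num)
  have hd : Tendsto (fun x : ℕ => Real.log ((x : ℝ) ^ a) *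
      (∏ p ∈ (⌈(x : ℝ) ^ a⌉₊).primesBelow, (1 - (p : ℝ)⁻¹)) /
        Real.exp (1 / (a * ((x : ℝ) ^ a - 1)))) atTop (𝓝 L) := by
    have h : Tendsto (fun x : ℕ => 1 / (a * ((x : ℝ) ^ a - 1))) atTop (𝓝 0) :=
      tendsto_const_nhds.div_atTop
        ((tendsto_atTop_add_const_right _ (-1) hzt).const_mul_atTop ha)
    simpa [hL, Function.comp_def, Pi.div_def] using (tendsto_log_mul_prod_below.comp hzt).div
      ((Real.continuous_exp.tendsto 0).comp h) (by simp)
  filter_upwards [(hu.eventually (ge_mem_nhds (show L < L + ε by linarith))),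
    (hd.eventually (le_mem_nhds (show L - ε < L by linarith))),
    hzt.eventually_ge_atTop 16, eventually_gt_atTop 1] with x hxu hxd hz hx1 M hM hM0 hMx
  obtain ⟨z, hzdef⟩ : ∃ z, z = (x : ℝ) ^ a := ⟨_, rfl⟩
  rw [← hzdef] at hxu hxd hz ⊢
  have hx0 : (0 : ℝ) < x := Nat.cast_pos.2 (by omega)
  have hl : 0 < Real.log x := Real.log_pos (Nat.one_lt_cast.2 hx1)
  have hlz : Real.log z = a * Real.log x := by rw [hzdef, Real.log_rpow hx0]
  obtain ⟨hlo, hhi⟩ := pairSeries_bounds hM0.ne' hM (show 4 ≤ z by linarith)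
  obtain ⟨Q, hQ⟩ : ∃ Q, Q = ∏ p ∈ (⌈z⌉₊).primesBelow, pairFactor M p := ⟨_, rfl⟩
  obtain ⟨P, hP⟩ : ∃ P, P = ∏ p ∈ (⌈z⌉₊).primesBelow, (1 - (p : ℝ)⁻¹) := ⟨_, rfl⟩
  rw [← hQ] at hlo hhi
  rw [← hP] at hxu hxd
  have hP0 : 0 ≤ P := hP ▸ prod_nonneg fun p hp => sub_nonneg.2
    (inv_le_one_of_one_le₀ (Nat.one_le_cast.2 (Nat.mem_primesBelow.1 hp).2.one_le))
  have hQ0 : 0 ≤ Q := hQ ▸ prod_nonneg fun p hp =>
    (pairFactor_pos hM (Nat.mem_primesBelow.1 hp).2).le
  have hS := pairSeries_pos hM0.ne' hM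
  have h8 : 0 < 1 - 8 / z := by
    rw [sub_pos, div_lt_one (by linarith)]
    linarith
  have hK : 0 ≤ Real.log z * P := mul_nonneg (by rw [hlz]; positivity) hP0
  have hexp : Real.exp (Real.log M / (Real.log z * (z - 1))) ≤ Real.exp (1 / (a * (z - 1))) := by
    rw [Real.exp_le_exp, hlz]
    have h1 : Real.log M ≤ Real.log x :=
      Real.log_le_log (Nat.cast_pos.2 hM0) (Nat.cast_le.2 hMx)
    rw [div_le_div_iff₀ (mul_pos (by positivity) (by linarith)) (mul_pos ha (by linarith))]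
    linarith [mul_le_mul_of_nonneg_right h1 (mul_nonneg ha.le (show 0 ≤ z - 1 by linarith))]
  rw [sieveProd_eq hM, ← hP, ← hQ, ← hlz, ← hL, abs_le]
  rw [div_le_iff₀ h8] at hxu
  rw [le_div_iff₀ (Real.exp_pos _)] at hxd
  constructor
  · have h2 : pairSeries M ≤ Q * Real.exp (1 / (a * (z - 1))) :=
      hhi.trans (mul_le_mul_of_nonneg_left hexp hQ0)
    rcases le_or_gt L ε with h | h
    · have : 0 ≤ P * Q * Real.log z := by
        rw [mul_comm P Q, mul_assoc, mul_comm P]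
        exact mul_nonneg hQ0 hK
      nlinarith
    · have h4 := mul_le_mul_of_nonneg_left h2 (show 0 ≤ L - ε by linarith)
      have h5 := mul_le_mul_of_nonneg_left hxd hQ0
      linarith
  · have h4 := mul_le_mul_of_nonneg_left hxu hQ0
    have h5 := mul_le_mul_of_nonneg_left hlo (show 0 ≤ L + ε by linarith)
    linarith

/-- **The singular series written out**: `𝔖 n = 𝔖 2 ∏_{p ∣ n, p > 2} (p - 1) / (p - 2)`, with
`𝔖 2 = 2 ∏_{p > 2} (1 - 1 / (p - 1) ^ 2)`. -/
theorem pairSeries_classical {n : ℕ} (hn0 : n ≠ 0) (hn : 2 ∣ n) :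
    pairSeries n = pairSeries 2 *
      ∏ p ∈ n.primeFactors.erase 2, ((p : ℝ) - 1) / ((p : ℝ) - 2) := by
  refine tendsto_nhds_unique (tendsto_prod_pairFactor hn0)
    (((tendsto_prod_pairFactor two_ne_zero).mul_const _).congr' ?_)
  filter_upwards [eventually_gt_atTop n] with k hk
  have hsub : n.primeFactors.erase 2 ⊆ k.primesBelow := fun p hp => by
    rw [mem_erase, Nat.mem_primeFactors] at hp
    exact Nat.mem_primesBelow.2
      ⟨lt_of_le_of_lt (Nat.le_of_dvd (Nat.pos_of_ne_zero hn0) hp.2.2.1) hk, hp.2.1⟩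
  rw [← inter_eq_right.2 hsub, ← prod_ite_mem, ← prod_mul_distrib]
  refine prod_congr rfl fun p hp => ?_
  have hpp := (Nat.mem_primesBelow.1 hp).2
  have h2 : (2 : ℝ) ≤ p := Nat.ofNat_le_cast.2 hpp.two_le
  rcases eq_or_ne p 2 with rfl | hne
  · rw [if_neg (notMem_erase 2 _), mul_one, pairFactor_dvd hpp dvd_rfl, pairFactor_dvd hpp hn]
  have h3 : (3 : ℝ) ≤ p := by
    have := hpp.two_le
    exact_mod_cast (show 3 ≤ p by omega)
  have hd2 : ¬ p ∣ 2 := fun h => hne ((Nat.prime_dvd_prime_iff_eq hpp Nat.prime_two).1 h)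
  rw [pairFactor_not_dvd hpp hd2]
  by_cases h : p ∣ n
  · rw [if_pos (mem_erase.2 ⟨hne, Nat.mem_primeFactors.2 ⟨hpp, h, hn0⟩⟩), pairFactor_dvd hpp h]
    have h1 : (p : ℝ) - 1 ≠ 0 := by linarith
    have h4 : (p : ℝ) - 2 ≠ 0 := by linarith
    field_simp
    ring
  · rw [if_neg fun h' => h (Nat.dvd_of_mem_primeFactors (mem_erase.1 h').2), mul_one,
      pairFactor_not_dvd hpp h]

end FA.SieveConstant
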