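import Fermat.Agent.Chen.AlmostPrimeTwo
import Fermat.Agent.SieveConstant.SingularProduct

/-!
# The singular series in Chen's theorem

With Mertens' third theorem the product of the sieve in Chen's weighted sum is at least
`(7 / 2) 𝔖 N / log N`, so the representations `N = p + P₂` are at least `𝔖 N N / (50 log ^ 2 N)`.
-/

set_option autoImplicit false

noncomputable section

namespace FA.SieveConstant

open Finset Filter
open FA.CombinatorialSieve FA.LinearSieve FA.Chen
open FA.AlmostGoldbach (pairSeries)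
open scoped Topology ArithmeticFunction.Omega

theorem half_le_exp_neg_eulerMascheroni :
    1 / 2 ≤ Real.exp (-Real.eulerMascheroniConstant) := by
  rw [one_div, ← Real.exp_log two_pos, ← Real.exp_neg, Real.exp_le_exp]
  linarith [Real.eulerMascheroniConstant_lt_two_thirds, Real.log_two_gt_d9]

/-- Chen's sum is at least `(1/50 + 1/1000) 𝔖 M x / log x`. -/
theorem eventually_chen_series_le : ∀ᶠ x : ℕ in atTop, ∀ (M c : ℕ) (k : ℕ → ℕ),
    2 ∣ M → 0 < M → M ≤ x →
    (∀ q : ℕ, q.Prime → (q : ℝ) < (x : ℝ) ^ (1 / 3 : ℝ) → ¬ q ∣ M → ¬ q ∣ c) →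
    Set.InjOn k (weightedSet x ((x : ℝ) ^ (1 / 8 : ℝ)) ((x : ℝ) ^ (1 / 3 : ℝ)) M c : Finset ℕ) →
    (∀ p ∈ weightedSet x ((x : ℝ) ^ (1 / 8 : ℝ)) ((x : ℝ) ^ (1 / 3 : ℝ)) M c,
      ∀ q : ℕ, q.Prime → ¬ q ∣ M → k p ≡ M [MOD q] → q ∣ p) →
      (pairSeries M / 50 + 1 / 1000) * x / Real.log x ≤
        ∑ p ∈ chenSet x ((x : ℝ) ^ (1 / 8 : ℝ)) ((x : ℝ) ^ (1 / 3 : ℝ)) M c k, Real.log p := by
  obtain ⟨η, -, h⟩ := exists_chenSet_ge_prod
  filter_upwards [h, eventually_sieveProd_asymp (show (0 : ℝ) < 1 / 8 by norm_num)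
    (show (0 : ℝ) < 1 / 100 by norm_num), eventually_ge_atTop 2]
    with x hx hV hx2 M c k hM hM0 hMx hc hinj hk
  have hl : 0 < Real.log x := Real.log_pos (Nat.one_lt_cast.2 (by omega))
  refine le_trans ?_ (hx M c k hM hM0 hMx hc hinj hk).2
  have h1 := (abs_le.1 (hV M hM hM0 hMx)).1
  have h2 := AlmostGoldbach.half_le_pairSeries hM0.ne' (even_iff_two_dvd.2 hM)
  have h3 := mul_le_mul_of_nonneg_right half_le_exp_neg_eulerMascheroni
    (show 0 ≤ pairSeries M by linarith)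
  rw [div_le_iff₀ hl, mul_assoc (6 / 1000 : ℝ), mul_assoc (x : ℝ), ← mul_left_comm,
    mul_comm _ (x : ℝ)]
  refine mul_le_mul_of_nonneg_left ?_ (Nat.cast_nonneg x)
  linarith

/-- **Chen's count with the singular series.** -/
theorem eventually_goldbach_two_series : ∀ᶠ N : ℕ in atTop, Even N →
    pairSeries N / 50 * N / Real.log N ^ 2 ≤ (((range N).filter fun p => p.Prime ∧ 1 < N - p ∧
      Ω (N - p) ≤ 2 ∧ ∀ q ∈ (N - p).primeFactors, N ≤ q ^ 8).card : ℝ) := by
  filter_upwards [eventually_chen_series_le,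
    eventually_goldbach_two_of (show (0 : ℝ) < 1 / 1000 by norm_num), eventually_gt_atTop 0]
    with N hN hof hN0 heven
  have hW : ∀ {z y : ℝ} {p : ℕ}, p ∈ weightedSet N z y N N → p ≤ N := fun hp => by
    rw [weightedSet, mem_filter, mem_Icc] at hp
    exact hp.1.2
  refine hof heven _ (hN N N (N - ·) heven.two_dvd hN0 le_rfl (fun q _ _ hq => hq)
    (fun p hp p' hp' e => ?_) fun p hp q _ _ hmod => ?_)
  · have h1 := hW hp
    have h2 := hW hp'
    dsimp only at e
    omega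
  · have h1 := (Nat.modEq_iff_dvd' (Nat.sub_le N p)).1 hmod
    rwa [Nat.sub_sub_self (hW hp)] at h1

/-- The same for the primes `p` with `p + h` a `P₂`. -/
theorem eventually_shift_two_series {h : ℕ} (hh : Even h) (hh0 : 0 < h) : ∀ᶠ x : ℕ in atTop,
    pairSeries h / 50 * x / Real.log x ^ 2 ≤ (((Icc 1 x).filter fun p => p.Prime ∧
      Ω (p + h) ≤ 2 ∧ ∀ q ∈ (p + h).primeFactors, x ≤ q ^ 8).card : ℝ) := by
  filter_upwards [eventually_chen_series_le,
    eventually_shift_two_of (show (0 : ℝ) < 1 / 1000 by norm_num) hh0, eventually_ge_atTop h]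
    with x hx hof hhx
  exact hof _ (hx h (shiftClass x h) (· + h) hh.two_dvd hh0 hhx (fun _ => shiftClass_not_dvd)
    (fun p _ p' _ e => Nat.add_right_cancel e) fun p _ => shift_class_spec h p)

end FA.SieveConstant
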