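import Fermat.Agent.SieveConstant.MobiusSum
import Fermat.Agent.SieveConstant.Buchstab
import Fermat.Agent.SieveConstant.SingularProduct
import Fermat.Agent.Root.SummaryPrimeNumberTheorem
import Mathlib.NumberTheory.Harmonic.Bounds

/-!
# Selberg's examples

The weights `1 - λ n` and `1 + λ n` on `n ≤ x` have the same main terms `x / d` and a remainder
`O (x / (log x) ^ A)` up to the level `x ^ (1 - δ)`. The first meets the upper bound of the linear
sieve for `1 ≤ s ≤ 3`, the second leaves only `n = 1` for `s < 2`.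
-/

set_option autoImplicit false

noncomputable section

namespace FA.SieveConstant

open Finset Filter
open scoped Topology

/-- `1 + e λ n`. -/
def parityWeight (e : ℝ) (n : ℕ) : ℝ := 1 + e * (ArithmeticFunction.liouville n : ℝ)

/-- `∑_{n ≤ x, d ∣ n} (1 + e λ n)`. -/
def parityCount (e : ℝ) (x d : ℕ) : ℝ :=
  ∑ n ∈ (Icc 1 x).filter (d ∣ ·), parityWeight e n

/-- `∑` of `1 + e λ n` over the `n ≤ x` without a prime factor `< z`. -/
def paritySifted (e : ℝ) (x : ℕ) (z : ℝ) : ℝ :=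
  ∑ n ∈ (Icc 1 x).filter (fun n : ℕ => ∀ p ∈ (⌈z⌉₊).primesBelow, ¬ p ∣ n), parityWeight e n

theorem liouville_abs_eq_one {n : ℕ} (hn : n ≠ 0) :
    |(ArithmeticFunction.liouville n : ℝ)| = 1 := by
  simp [ArithmeticFunction.liouville_apply hn]

theorem parityWeight_nonneg {e : ℝ} (he : |e| ≤ 1) {n : ℕ} (hn : n ≠ 0) :
    0 ≤ parityWeight e n := by
  have h : |e * (ArithmeticFunction.liouville n : ℝ)| ≤ 1 := by
    rwa [abs_mul, liouville_abs_eq_one hn, mul_one]
  rw [parityWeight]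
  linarith [(abs_le.1 h).1]

theorem parityCount_eq (e : ℝ) (x : ℕ) {d : ℕ} (hd : 0 < d) :
    parityCount e x d = ((x / d : ℕ) : ℝ) + e * (ArithmeticFunction.liouville d : ℝ) *
      ∑ m ∈ Icc 1 (x / d), (ArithmeticFunction.liouville m : ℝ) := by
  have h : (Icc 1 x).filter (d ∣ ·) = (Icc 1 (x / d)).image (d * ·) := by
    ext n
    simp only [mem_filter, mem_Icc, mem_image]
    constructor
    · rintro ⟨⟨h1, h2⟩, m, rfl⟩
      exact ⟨m, ⟨Nat.pos_of_mul_pos_left h1, (Nat.le_div_iff_mul_le hd).2 (by rwa [mul_comm])⟩,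
        rfl⟩
    · rintro ⟨m, ⟨h1, h2⟩, rfl⟩
      refine ⟨⟨Nat.mul_pos hd h1, ?_⟩, dvd_mul_right d m⟩
      rw [mul_comm]
      exact (Nat.le_div_iff_mul_le hd).1 h2
  rw [parityCount, h, sum_image fun a _ b _ => Nat.eq_of_mul_eq_mul_left hd, mul_sum]
  simp only [parityWeight, sum_add_distrib, sum_const, Nat.card_Icc, Nat.add_sub_cancel,
    nsmul_eq_mul, mul_one, ArithmeticFunction.liouville_apply_mul, Int.cast_mul, mul_assoc]

/-- **The level of distribution.** -/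
theorem eventually_parity_level {e δ : ℝ} (he : |e| ≤ 1) (hδ : 0 < δ) (hδ1 : δ < 1) (A : ℕ) :
    ∀ᶠ x : ℕ in atTop, ∑ d ∈ Icc 1 ⌊(x : ℝ) ^ (1 - δ)⌋₊, |parityCount e x d - x / d| ≤
      x / Real.log x ^ A := by
  obtain ⟨C, hC, hL⟩ := exists_liouvilleSum_le (A + 2)
  obtain ⟨N₀, hN₀⟩ := eventually_atTop.1 hL
  obtain ⟨K, hK⟩ : ∃ K, K = 4 * C * (2 / δ) ^ (A + 2) := ⟨_, rfl⟩
  filter_upwards [((tendsto_rpow_atTop (show 0 < δ / 2 by linarith)).comp
      (tendsto_natCast_atTop_atTop (R := ℝ))).eventually_ge_atTop (max 4 (N₀ : ℝ)),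
    BombieriVinogradov.eventually_log_pow_le A (show 0 < δ / 2 by linarith),
    (Real.tendsto_log_atTop.comp (tendsto_natCast_atTop_atTop (R := ℝ))).eventually_ge_atTop
      (max 1 (2 * K)), eventually_ge_atTop 2] with x hx4 hlog hlK hx2
  simp only [Function.comp_apply] at hx4 hlK
  obtain ⟨L, hLdef⟩ : ∃ L, L = Real.log x := ⟨_, rfl⟩
  rw [← hLdef] at hlog hlK ⊢
  have hL1 : 1 ≤ L := le_of_max_le_left hlK
  have hx0 : (0 : ℝ) < x := Nat.cast_pos.2 (by omega)
  have hx1 : (1 : ℝ) ≤ x := Nat.one_le_cast.2 (by omega)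
  obtain ⟨D, hD⟩ : ∃ D, D = (x : ℝ) ^ (1 - δ) := ⟨_, rfl⟩
  rw [← hD]
  obtain ⟨y, hy⟩ : ∃ y, y = (x : ℝ) ^ (δ / 2) := ⟨_, rfl⟩
  rw [← hy] at hx4 hlog
  have hy4 : 4 ≤ y := le_of_max_le_left hx4
  have hyy : D * (y * y) = x := by
    rw [hD, hy, ← Real.rpow_add hx0, ← Real.rpow_add hx0, show 1 - δ + (δ / 2 + δ / 2) = 1 by ring,
      Real.rpow_one]
  have hD0 : 0 ≤ D := hD ▸ Real.rpow_nonneg hx0.le _
  have hDx : D ≤ x := hyy ▸ le_mul_of_one_le_right hD0 (by nlinarith)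
  have hterm : ∀ d ∈ Icc 1 ⌊D⌋₊, |parityCount e x d - x / d| ≤
      1 + C * (2 / δ) ^ (A + 2) * x / L ^ (A + 2) * (d : ℝ)⁻¹ := by
    intro d hd
    have hd1 := (mem_Icc.1 hd).1
    have hd0 : (0 : ℝ) < d := Nat.cast_pos.2 hd1
    have hdD : (d : ℝ) ≤ D := (Nat.cast_le.2 (mem_Icc.1 hd).2).trans (Nat.floor_le hD0)
    obtain ⟨k, hk⟩ : ∃ k : ℕ, k = x / d := ⟨_, rfl⟩
    have hkx : (k : ℝ) ≤ x / d := hk ▸ Nat.cast_div_le
    have hxk : (x : ℝ) / d < k + 1 := by
      rw [div_lt_iff₀ hd0]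
      have := Nat.lt_mul_div_succ x (show 0 < d from hd1)
      rw [← hk, mul_comm] at this
      exact_mod_cast this
    have hyk : y ≤ k := by
      have : y * y ≤ x / d := by
        rw [le_div_iff₀ hd0, ← hyy, mul_comm D]
        exact mul_le_mul_of_nonneg_left hdD (by positivity)
      nlinarith
    have hkN : N₀ ≤ k := Nat.cast_le.1 ((le_of_max_le_right hx4).trans hyk)
    have hlk : δ / 2 * L ≤ Real.log k := by
      rw [hLdef, ← Real.log_rpow hx0, ← hy]
      exact Real.log_le_log (by linarith) hyk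
    have hS := hN₀ k hkN
    rw [parityCount_eq e x hd1, ← hk, add_sub_right_comm]
    refine (abs_add_le _ _).trans (add_le_add (abs_le.2 ⟨by linarith, by linarith⟩) ?_)
    rw [abs_mul, abs_mul, liouville_abs_eq_one (by omega), mul_one]
    refine (mul_le_of_le_one_left (abs_nonneg _) he).trans (hS.trans ?_)
    calc C * k / Real.log k ^ (A + 2) ≤ C * (x / d) / (δ / 2 * L) ^ (A + 2) :=
          div_le_div₀ (by positivity) (mul_le_mul_of_nonneg_left hkx hC) (by positivity)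
            (pow_le_pow_left₀ (by positivity) hlk _)
      _ = C * (2 / δ) ^ (A + 2) * x / L ^ (A + 2) * (d : ℝ)⁻¹ := by
          simp only [mul_pow, div_pow]
          field_simp
  refine (sum_le_sum hterm).trans ?_
  rw [sum_add_distrib, ← mul_sum, sum_const, Nat.card_Icc, Nat.add_sub_cancel, nsmul_eq_mul,
    mul_one]
  have hH : ∑ d ∈ Icc 1 ⌊D⌋₊, (d : ℝ)⁻¹ ≤ 2 * L := by
    have h1 : ((harmonic ⌊D⌋₊ : ℚ) : ℝ) = ∑ d ∈ Icc 1 ⌊D⌋₊, (d : ℝ)⁻¹ := by
      rw [harmonic_eq_sum_Icc]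
      push_cast
      rfl
    rw [← h1]
    refine (harmonic_le_one_add_log _).trans ?_
    rcases Nat.eq_zero_or_pos ⌊D⌋₊ with h | h
    · simp [h]; linarith
    · have := Real.log_le_log (Nat.cast_pos.2 h) ((Nat.floor_le hD0).trans hDx)
      rw [← hLdef] at this
      linarith
  have h2 : (⌊D⌋₊ : ℝ) ≤ x / L ^ A / 2 := by
    refine (Nat.floor_le hD0).trans ?_
    rw [div_div, le_div_iff₀ (by positivity), ← hyy]
    refine mul_le_mul_of_nonneg_left ?_ hD0
    nlinarith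
  have hK0 : 0 ≤ C * (2 / δ) ^ (A + 2) := by positivity
  have h3 : C * (2 / δ) ^ (A + 2) * x / L ^ (A + 2) * (2 * L) ≤ x / L ^ A / 2 := by
    rw [show C * (2 / δ) ^ (A + 2) * x / L ^ (A + 2) * (2 * L) =
      x / L ^ A * (2 * (C * (2 / δ) ^ (A + 2)) / L) by field_simp; ring,
      div_eq_mul_inv (x / L ^ A) 2]
    refine mul_le_mul_of_nonneg_left ?_ (by positivity)
    rw [div_le_iff₀ (by linarith)]
    linarith [le_of_max_le_right hlK]
  refine (add_le_add h2 ((mul_le_mul_of_nonneg_left hH (by positivity)).trans h3)).trans ?_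
  linarith

/-- The product of the sieve at `x ^ a`. -/
theorem eventually_prod_below_asymp {a η : ℝ} (ha : 0 < a) (hη : 0 < η) :
    ∀ᶠ x : ℕ in atTop, |(∏ p ∈ (⌈(x : ℝ) ^ a⌉₊).primesBelow, (1 - (p : ℝ)⁻¹)) * (a * Real.log x) -
      Real.exp (-Real.eulerMascheroniConstant)| < η := by
  filter_upwards [(tendsto_log_mul_prod_below.comp ((tendsto_rpow_atTop ha).comp
    (tendsto_natCast_atTop_atTop (R := ℝ)))).eventually (Metric.ball_mem_nhds _ hη),
    eventually_gt_atTop 0] with x hx hx0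
  simp only [Function.comp_apply, Real.dist_eq] at hx
  rwa [Real.log_rpow (Nat.cast_pos.2 hx0), mul_comm] at hx

theorem prime_weight_two {p : ℕ} (hp : p.Prime) : parityWeight (-1) p = 2 := by
  rw [parityWeight, ArithmeticFunction.liouville_apply hp.ne_zero,
    ArithmeticFunction.cardFactors_apply_prime hp]
  norm_num

/-- `∑_{n ≤ x} (1 - λ n)` over the rough `n` keeps all the primes `≥ z`. -/
theorem two_mul_primes_le (x : ℕ) {z : ℝ} (hz : 0 ≤ z) :
    2 * ((Nat.primeCounting x : ℝ) - (z + 1)) ≤ paritySifted (-1) x z := by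
  classical
  obtain ⟨P, hP⟩ : ∃ P, P = (Icc 1 x).filter fun p : ℕ => p.Prime ∧ z ≤ p := ⟨_, rfl⟩
  have h1 : (Nat.primeCounting x : ℝ) ≤ #P + (z + 1) := by
    rw [← Nat.primesLE_card_eq_primeCounting]
    refine le_trans (Nat.cast_le.2 ((card_le_card (t := P ∪ range (⌊z⌋₊ + 1)) fun p hp => ?_).trans
      (card_union_le _ _))) ?_
    · rw [Nat.mem_primesLE] at hp
      rcases le_or_gt z (p : ℝ) with h | h
      · exact mem_union_left _ (hP ▸ mem_filter.2 ⟨mem_Icc.2 ⟨hp.2.one_le, hp.1⟩, hp.2, h⟩)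
      · exact mem_union_right _ (mem_range.2 (Nat.lt_succ_of_le (Nat.le_floor h.le)))
    · rw [card_range]
      push_cast
      linarith [Nat.floor_le hz]
  have h2 : 2 * (#P : ℝ) ≤ paritySifted (-1) x z := by
    rw [paritySifted, show 2 * (#P : ℝ) = ∑ p ∈ P, parityWeight (-1) p by
      rw [sum_congr rfl fun p hp => prime_weight_two (mem_filter.1 (hP ▸ hp)).2.1, sum_const,
        nsmul_eq_mul, mul_comm]]
    refine sum_le_sum_of_subset_of_nonneg (fun p hp => ?_) fun n hn _ =>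
      parityWeight_nonneg (by simp) (by have := (mem_Icc.1 (mem_filter.1 hn).1).1; omega)
    rw [hP, mem_filter] at hp
    refine mem_filter.2 ⟨hp.1, fun q hq hqp => ?_⟩
    rw [Nat.mem_primesBelow, Nat.lt_ceil] at hq
    rw [Nat.prime_dvd_prime_iff_eq hq.2 hp.2.1] at hqp
    subst hqp
    linarith [hp.2.2, hq.1]
  linarith

/-- **`F` is attained.** -/
theorem exists_parity_upper {s ε : ℝ} (hs1 : 1 ≤ s) (hs3 : s ≤ 3) (hε : 0 < ε) :
    ∃ δ₀, 0 < δ₀ ∧ δ₀ < 1 ∧ ∀ δ, 0 < δ → δ ≤ δ₀ → ∀ᶠ x : ℕ in atTop,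
      (LinearSieve.sieveUpperFn s - ε) *
        (x * ∏ p ∈ (⌈(x : ℝ) ^ ((1 - δ) / s)⌉₊).primesBelow, (1 - (p : ℝ)⁻¹)) ≤
          paritySifted (-1) x ((x : ℝ) ^ ((1 - δ) / s)) := by
  obtain ⟨η, hη⟩ : ∃ η, η = min (ε / 40) (1 / 4) := ⟨_, rfl⟩
  have hη0 : 0 < η := hη ▸ lt_min (by linarith) (by norm_num)
  have hη1 : η ≤ 1 / 4 := hη ▸ min_le_right _ _
  have hη2 : η ≤ ε / 40 := hη ▸ min_le_left _ _
  refine ⟨η, hη0, by linarith, fun δ hδ hδη => ?_⟩
  obtain ⟨a, ha⟩ : ∃ a, a = (1 - δ) / s := ⟨_, rfl⟩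
  have has : a * s = 1 - δ := by rw [ha]; field_simp
  have ha0 : 0 < a := by rw [ha]; exact div_pos (by linarith) (by linarith)
  have ha1 : a ≤ 1 - δ := ha ▸ div_le_self (by linarith) hs1
  rw [← ha, LinearSieve.sieveUpperFn_eq hs1 hs3]
  have hpnt := (FA.PNT.Summary.prime_number_theorem.comp
    (tendsto_natCast_atTop_atTop (R := ℝ))).eventually
      (eventually_ge_nhds (show 1 - η < 1 by linarith))
  filter_upwards [hpnt, eventually_prod_below_asymp ha0 hη0,
    BombieriVinogradov.eventually_log_pow_le 1 (show 0 < δ / 2 by linarith),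
    ((tendsto_rpow_atTop (show 0 < δ / 2 by linarith)).comp
      (tendsto_natCast_atTop_atTop (R := ℝ))).eventually_ge_atTop (2 / η),
    eventually_ge_atTop 2] with x hπ hV hlog hxη hx2
  simp only [Function.comp_apply, Nat.floor_natCast] at hπ hxη
  rw [pow_one] at hlog
  obtain ⟨L, hL⟩ : ∃ L, L = Real.log x := ⟨_, rfl⟩
  rw [← hL] at hπ hV hlog
  have hx0 : (0 : ℝ) < x := Nat.cast_pos.2 (by omega)
  have hx1 : (1 : ℝ) ≤ x := Nat.one_le_cast.2 (by omega)
  have hL0 : 0 < L := hL ▸ Real.log_pos (Nat.one_lt_cast.2 (by omega))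
  obtain ⟨z, hz⟩ : ∃ z, z = (x : ℝ) ^ a := ⟨_, rfl⟩
  rw [← hz] at hV ⊢
  have hz1 : 1 ≤ z := hz ▸ Real.one_le_rpow hx1 ha0.le
  have hzL : (z + 1) * L ≤ η * x := by
    obtain ⟨y, hy⟩ : ∃ y, y = (x : ℝ) ^ (δ / 2) := ⟨_, rfl⟩
    rw [← hy] at hlog hxη
    have h1 : z * (y * y) ≤ x := by
      rw [hz, hy, ← Real.rpow_add hx0, ← Real.rpow_add hx0]
      exact (Real.rpow_le_rpow_of_exponent_le hx1 (show a + (δ / 2 + δ / 2) ≤ 1 by linarith)).trans
        (le_of_eq (Real.rpow_one _))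
    rw [div_le_iff₀ hη0] at hxη
    have h2 : (z + 1) * L ≤ 2 * z * y := mul_le_mul (by linarith) hlog hL0.le (by linarith)
    have h3 := mul_le_mul_of_nonneg_left hxη (show 0 ≤ z * y by nlinarith)
    nlinarith [mul_le_mul_of_nonneg_left h1 hη0.le]
  rw [le_div_iff₀ hx0] at hπ
  obtain ⟨V, hVdef⟩ : ∃ V, V = ∏ p ∈ (⌈z⌉₊).primesBelow, (1 - (p : ℝ)⁻¹) := ⟨_, rfl⟩
  rw [← hVdef] at hV ⊢
  have hV0 : 0 ≤ V := hVdef ▸ prod_nonneg fun p hp => sub_nonneg.2
    (inv_le_one_of_one_le₀ (Nat.one_le_cast.2 (Nat.mem_primesBelow.1 hp).2.one_le))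
  obtain ⟨E, hE⟩ : ∃ E, E = Real.exp (-Real.eulerMascheroniConstant) := ⟨_, rfl⟩
  obtain ⟨B, hB⟩ : ∃ B, B = LinearSieve.linearConst := ⟨_, rfl⟩
  have hBE : B * E = 2 := by
    rw [hB, hE, linearConst_eq, Real.exp_neg, mul_assoc, mul_inv_cancel₀ (Real.exp_pos _).ne',
      mul_one]
  rw [← hE] at hV
  rw [← hB]
  refine le_trans ?_ (two_mul_primes_le x (by linarith : 0 ≤ z))
  rcases le_total (B - ε) 0 with hneg | hpos
  · refine le_trans (mul_nonpos_of_nonpos_of_nonneg ?_ (by positivity)) ?_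
    · rw [sub_nonpos, div_le_iff₀ (by linarith)]
      nlinarith
    · nlinarith
  have hB4 : B ≤ 6 := by
    rw [hB, linearConst_eq]
    have h := Real.exp_le_exp.2 (show Real.eulerMascheroniConstant ≤ 1 by
      linarith [Real.eulerMascheroniConstant_lt_two_thirds])
    linarith [Real.exp_one_lt_three]
  have hE2 : 1 / 2 ≤ E := by
    rw [hE, one_div, ← Real.exp_log two_pos, ← Real.exp_neg, Real.exp_le_exp]
    linarith [Real.eulerMascheroniConstant_lt_two_thirds, Real.log_two_gt_d9]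
  have h1 : (B - ε) * (V * (a * L)) ≤ (B - ε) * (E + η) :=
    mul_le_mul_of_nonneg_left (by linarith [(abs_lt.1 hV).2]) hpos
  have h2 : (B - ε) * (E + η) ≤ 2 * (1 - 3 * η) := by
    nlinarith [mul_le_mul_of_nonneg_right hB4 hη0.le, mul_le_mul_of_nonneg_left hE2 hε.le]
  have hls : (B / s - ε) * s ≤ B - ε := by
    rw [sub_mul, div_mul_cancel₀ _ (by linarith : s ≠ 0)]
    nlinarith
  have h3 : (B / s - ε) * (V * L) * (1 - δ) ≤ 2 * (1 - 2 * η) * (1 - δ) := by
    have h4 : (B / s - ε) * (V * L) * (1 - δ) = (B / s - ε) * s * (V * (a * L)) := by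
      rw [← has]; ring
    rw [h4]
    refine (mul_le_mul_of_nonneg_right hls (mul_nonneg hV0 (mul_nonneg ha0.le hL0.le))).trans
      (h1.trans (h2.trans ?_))
    nlinarith
  have h5 := mul_le_mul_of_nonneg_left (le_of_mul_le_mul_right h3 (by linarith)) hx0.le
  refine le_of_mul_le_mul_right (le_trans (le_of_eq ?_) (h5.trans ?_)) hL0
  · ring
  · nlinarith

theorem one_weight_two : parityWeight 1 1 = 2 := by
  norm_num [parityWeight, ArithmeticFunction.liouville_apply_one]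

/-- **The parity problem**: below `s = 2` only `n = 1` is left. -/
theorem paritySifted_eq_two {x : ℕ} {z : ℝ} (hx : 1 ≤ x) (hz : (x : ℝ) < z ^ 2) (hz0 : 0 ≤ z) :
    paritySifted 1 x z = 2 := by
  classical
  rw [paritySifted, sum_eq_single_of_mem 1, one_weight_two]
  · simp only [mem_filter, mem_Icc, Nat.mem_primesBelow, Nat.dvd_one]
    exact ⟨⟨le_rfl, hx⟩, fun p hp => hp.2.ne_one⟩
  · intro n hn hn1
    rw [mem_filter, mem_Icc] at hn
    have hprime : n.Prime := by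
      by_contra hp
      have h1 := Nat.minFac_sq_le_self (by omega) hp
      have hq := Nat.minFac_prime hn1
      refine hn.2 _ (Nat.mem_primesBelow.2 ⟨Nat.lt_ceil.2 ?_, hq⟩) (Nat.minFac_dvd n)
      refine lt_of_pow_lt_pow_left₀ 2 hz0 (lt_of_le_of_lt ?_ hz)
      exact_mod_cast h1.trans hn.1.2
    rw [parityWeight, ArithmeticFunction.liouville_apply hprime.ne_zero,
      ArithmeticFunction.cardFactors_apply_prime hprime]
    norm_num

theorem eventually_parity_lower {s δ ε : ℝ} (hs : 0 < s) (hs2 : s < 2 * (1 - δ))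
    (hε : 0 < ε) : ∀ᶠ x : ℕ in atTop,
      paritySifted 1 x ((x : ℝ) ^ ((1 - δ) / s)) = 2 ∧ 2 ≤ ε *
        (x * ∏ p ∈ (⌈(x : ℝ) ^ ((1 - δ) / s)⌉₊).primesBelow, (1 - (p : ℝ)⁻¹)) := by
  obtain ⟨a, ha⟩ : ∃ a, a = (1 - δ) / s := ⟨_, rfl⟩
  have ha2 : 1 / 2 < a := by
    rw [ha, lt_div_iff₀ hs]
    linarith
  rw [← ha]
  have hE := Real.exp_pos (-Real.eulerMascheroniConstant)
  filter_upwards [eventually_prod_below_asymp (show 0 < a by linarith) (half_pos hE),
    CombinatorialSieve.eventually_error_le (η := ε * Real.exp (-Real.eulerMascheroniConstant) /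
      (2 * a)) (by have : 0 < a := by linarith
                   positivity) 2, eventually_ge_atTop 3] with x hV herr hx2
  have hx0 : (0 : ℝ) < x := Nat.cast_pos.2 (by omega)
  have hx1 : (1 : ℝ) < x := Nat.one_lt_cast.2 (by omega)
  have hl : 0 < Real.log x := Real.log_pos hx1
  have hl2 : 1 ≤ Real.log x := by
    rw [Real.le_log_iff_exp_le hx0]
    linarith [Real.exp_one_lt_three, (Nat.ofNat_le_cast (α := ℝ)).2 hx2]
  refine ⟨paritySifted_eq_two (by omega) ?_ (by positivity), ?_⟩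
  · rw [← Real.rpow_natCast ((x : ℝ) ^ a), ← Real.rpow_mul hx0.le]
    refine (Real.rpow_one (x : ℝ)).symm.trans_lt (Real.rpow_lt_rpow_of_exponent_lt hx1 ?_)
    push_cast
    linarith
  · obtain ⟨V, hVdef⟩ : ∃ V, V = ∏ p ∈ (⌈(x : ℝ) ^ a⌉₊).primesBelow, (1 - (p : ℝ)⁻¹) := ⟨_, rfl⟩
    rw [← hVdef] at hV ⊢
    have hV1 : Real.exp (-Real.eulerMascheroniConstant) / 2 ≤ V * (a * Real.log x) := by
      linarith [(abs_lt.1 hV).1]
    have ha0 : 0 < a := by linarith
    rw [le_div_iff₀ hl] at herr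
    have h6 := mul_le_mul_of_nonneg_left hV1 (show 0 ≤ ε * x by positivity)
    have h7 : 2 * Real.log x * Real.log x * a ≤
        ε * Real.exp (-Real.eulerMascheroniConstant) / 2 * x := by
      have := mul_le_mul_of_nonneg_right herr ha0.le
      push_cast at this
      refine this.trans (le_of_eq ?_)
      field_simp
    have h8 : 2 * Real.log x ≤ ε * (x * V) * Real.log x := by
      refine le_of_mul_le_mul_right ?_ ha0
      nlinarith [mul_le_mul_of_nonneg_left hl2 (show 0 ≤ 2 * Real.log x * a by positivity)]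
    nlinarith

end FA.SieveConstant
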