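import Fermat.Agent.SieveConstant.Buchstab
import Fermat.Agent.SieveConstant.SingularProduct
import Fermat.Agent.LinearSieve.Weighted
import Fermat.Agent.Chen.Switching

/-!
# The upper bounds of Bombieri and Davenport

The linear sieve at `s = 1` with the level `x ^ (1/2 - η)` of Bombieri and Vinogradov gives at most
`(4 + ε) 𝔖 h x / log ^ 2 x` prime pairs `p, p + h` and as many representations `N = p + p'`.
-/

set_option autoImplicit false

noncomputable section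

namespace FA.SieveConstant

open Finset Filter
open FA.CombinatorialSieve FA.LinearSieve
open FA.AlmostGoldbach (pairSeries)
open scoped Topology

theorem middlePrimes_self (z : ℝ) (M : ℕ) : middlePrimes z z M = ∅ :=
  filter_eq_empty_iff.2 fun _ hq => not_le.2 (mem_sievingPrimes.1 hq).2.1

theorem linearConst_le_four : linearConst ≤ 4 := by
  rw [linearConst_eq]
  have h : Real.exp Real.eulerMascheroniConstant ≤ Real.exp (2 / 3) :=
    Real.exp_le_exp.2 Real.eulerMascheroniConstant_lt_two_thirds.le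
  have h2 : Real.exp (2 / 3) ≤ 2 := by
    rw [← Real.le_log_iff_exp_le two_pos]
    linarith [Real.log_two_gt_d9]
  linarith

/-- **The sifted primes, from above.** -/
theorem eventually_sifted_le {ε : ℝ} (hε : 0 < ε) : ∃ b : ℝ, 0 < b ∧ b ≤ 1 / 2 ∧
    ∀ᶠ x : ℕ in atTop, ∀ (M c : ℕ), 2 ∣ M → 0 < M → M ≤ x →
      (∀ q : ℕ, q.Prime → (q : ℝ) < (x : ℝ) ^ b → ¬ q ∣ M → ¬ q ∣ c) →
        ∑ p ∈ (Icc 1 x).filter (fun p : ℕ => p.Prime ∧ (sievingProd ((x : ℝ) ^ b) M).Coprime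
          (p + classShift ((x : ℝ) ^ b) M c)), Real.log p ≤
            (4 + ε) * pairSeries M * x / Real.log x := by
  obtain ⟨e, he⟩ : ∃ e, e = min (ε / 8) (1 / 100) := ⟨_, rfl⟩
  have he0 : 0 < e := he ▸ lt_min (by linarith) (by norm_num)
  have he1 : e ≤ 1 / 100 := he ▸ min_le_right _ _
  have he2 : e ≤ ε / 8 := he ▸ min_le_left _ _
  obtain ⟨b, hb⟩ : ∃ b, b = 1 / 2 - e / 10 := ⟨_, rfl⟩
  have hb0 : 0 < b := by linarith
  refine ⟨b, hb0, by linarith, ?_⟩
  obtain ⟨B, C, hC, hBV⟩ := BombieriVinogradov.Summary.bombieri_vinogradov_theta 2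
  obtain ⟨w, hw4, hw⟩ := exists_ratioBound_invPhi (show (0 : ℝ) < e / 6 / 30000 by positivity)
  obtain ⟨W, hWdef⟩ : ∃ W, W = ∏ p ∈ (range ⌈w⌉₊).filter Nat.Prime, p := ⟨_, rfl⟩
  filter_upwards [eventually_sieveProd_asymp hb0 (show 0 < e / 6 by positivity),
    ((tendsto_rpow_atTop hb0).comp
      (tendsto_natCast_atTop_atTop (R := ℝ))).eventually_ge_atTop 2,
    ((tendsto_rpow_atTop (show 0 < e / 20 by positivity)).comp
      (tendsto_natCast_atTop_atTop (R := ℝ))).eventually_ge_atTop (W : ℝ),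
    BombieriVinogradov.eventually_log_ge (max 1 (4 * C / e)),
    BombieriVinogradov.eventually_log_pow_le B (show (0 : ℝ) < e / 20 by positivity),
    eventually_ge_atTop 3] with x hV hz2 hWx hlC hlB hx3 M c hM hM0 hMx hc
  simp only [Function.comp_apply] at hz2 hWx
  obtain ⟨l, hl⟩ : ∃ l, l = Real.log x := ⟨_, rfl⟩
  rw [← hl] at hV hlC hlB ⊢
  have hl1 : 1 ≤ l := le_of_max_le_left hlC
  have hl0 : 0 < l := by linarith
  have hx0 : (0 : ℝ) < x := Nat.cast_pos.2 (by omega)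
  have hx1 : (1 : ℝ) ≤ x := Nat.one_le_cast.2 (by omega)
  obtain ⟨z, hz⟩ : ∃ z, z = (x : ℝ) ^ b := ⟨_, rfl⟩
  rw [← hz] at hV hz2 hc ⊢
  have hDW : z * W ≤ Real.sqrt x / l ^ B := by
    rw [le_div_iff₀ (by positivity)]
    refine (mul_le_mul (mul_le_mul_of_nonneg_left hWx (by linarith)) hlB (by positivity)
      (by positivity)).trans ?_
    rw [hz, ← Real.rpow_add hx0, ← Real.rpow_add hx0, Real.sqrt_eq_rpow]
    exact Real.rpow_le_rpow_of_exponent_le hx1 (by linarith)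
  obtain ⟨S, hS⟩ : ∃ S, S = multipleSieve x z z M c 1 hM := ⟨_, rfl⟩
  have hpf : S.prodPrimes.primeFactors = sievingPrimes z M := hS ▸ primeFactors_sievingProd z M
  have hW : smallProduct S w ≤ W := by
    rw [smallProduct, hWdef, hpf]
    refine Nat.le_of_dvd (prod_pos fun p hp => (mem_filter.1 hp).2.pos)
      (prod_dvd_prod_of_subset _ _ _ fun p hp => ?_)
    rw [mem_filter, not_le] at hp
    rw [mem_filter, mem_range, Nat.lt_ceil]
    exact ⟨hp.2, prime_of_mem_sievingPrimes hp.1⟩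
  obtain ⟨E, hE⟩ : ∃ E, E = C * ((x : ℝ) / l ^ 2) := ⟨_, rfl⟩
  have hR := remSum_total_le (y := z) (D := z) (E := E) (w := w) (W := W) hM le_rfl
    (by linarith) hc (hS ▸ hW) fun a ha =>
      hE ▸ hl ▸ hBV x hx3 ⌊z * W⌋₊ (hl ▸ (Nat.floor_le (by positivity)).trans hDW) (fun _ => x) a
        fun n hn => ⟨le_rfl, ha n hn⟩
  rw [middlePrimes_self, sum_empty, zero_div, add_zero, ← hS] at hR
  have hratio : RatioBound (largePrimes S w) S.nu (e / 6 / 30000) := by
    rw [show S.nu = invPhi by rw [hS]; rfl]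
    refine hw _ fun p hp => ?_
    rw [largePrimes, mem_filter, hpf] at hp
    exact ⟨prime_of_mem_sievingPrimes hp.1, hp.2⟩
  have htot : S.totalMass = (x : ℝ) := by
    rw [hS]
    show (x : ℝ) / ((1 : ℕ).totient : ℝ) = x
    simp
  have hup := (linear_sieve (δ := e / 6) (ε := e / 6 / 30000) (by positivity) (by linarith)
    (by positivity) (by linarith) S (w := w) (by rw [htot]; positivity) (fun p hp => by
      rw [hpf] at hp
      exact (mem_sievingPrimes.1 hp).2.1) hz2 (show (0 : ℝ) < z by linarith) hratio).1 le_rfl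
  rw [div_self (Real.log_pos (show (1 : ℝ) < z by linarith)).ne',
    sieveUpperFn_eq le_rfl (by norm_num), div_one, htot] at hup
  have hsift : ∑ p ∈ (Icc 1 x).filter (fun p : ℕ => p.Prime ∧ (sievingProd z M).Coprime
      (p + classShift z M c)), Real.log p = S.siftedSum := by
    rw [hS, multipleSieve_siftedSum]
    refine sum_congr (filter_congr fun p _ => ?_) fun _ _ => rfl
    simp
  rw [hsift]
  refine hup.trans ?_
  obtain ⟨V, hVdef⟩ : ∃ V, V = sieveProduct S := ⟨_, rfl⟩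
  have hVe : V = ∏ p ∈ sievingPrimes z M, (1 - invPhi p) := by
    rw [hVdef, sieveProduct, hpf, hS]
    rfl
  obtain ⟨P, hP⟩ : ∃ P, P = pairSeries M := ⟨_, rfl⟩
  obtain ⟨A, hA⟩ : ∃ A, A = linearConst := ⟨_, rfl⟩
  obtain ⟨L, hL⟩ : ∃ L, L = Real.exp (-Real.eulerMascheroniConstant) := ⟨_, rfl⟩
  have hAL : A * L = 2 := by
    rw [hA, hL, linearConst_eq, Real.exp_neg, mul_assoc, mul_inv_cancel₀ (Real.exp_pos _).ne',
      mul_one]
  have hA0 : 0 < A := hA ▸ linearConst_pos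
  have hA4 : A ≤ 4 := hA ▸ linearConst_le_four
  have hL1 : L ≤ 1 := hL ▸ Real.exp_le_one_iff.2
    (by linarith [Real.one_half_lt_eulerMascheroniConstant])
  have hP2 : 1 / 2 ≤ P := hP ▸ AlmostGoldbach.half_le_pairSeries hM0.ne' (even_iff_two_dvd.2 hM)
  have hV' := (abs_le.1 (hV M hM hM0 hMx)).2
  rw [← hVe, ← hP, ← hL] at hV'
  rw [← hVdef, ← hA, ← hP]
  have h1 : V * (b * l) * (A + e / 6) ≤ (2 + e) * P := by
    refine (mul_le_mul_of_nonneg_right (show V * (b * l) ≤ (L + e / 6) * P by linarith)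
      (show 0 ≤ A + e / 6 by positivity)).trans ?_
    rw [mul_right_comm]
    refine mul_le_mul_of_nonneg_right ?_ (by linarith)
    nlinarith [mul_le_mul_of_nonneg_left hA4 (show 0 ≤ e / 6 by positivity),
      mul_le_mul_of_nonneg_left hL1 (show 0 ≤ e / 6 by positivity)]
  have h2 : E ≤ e * P * x / l / 2 := by
    have h3 : 4 * C / e ≤ l := le_of_max_le_right hlC
    rw [div_le_iff₀ he0] at h3
    have h4 := mul_le_mul_of_nonneg_left hP2 (show 0 ≤ e * l by positivity)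
    have h5 := mul_le_mul_of_nonneg_left (show C ≤ e * l * P / 2 by linarith) hx0.le
    rw [hE, mul_div_assoc', div_div, div_le_div_iff₀ (by positivity) (by positivity)]
    nlinarith [mul_le_mul_of_nonneg_left h5 hl0.le]
  have h6 : (x : ℝ) * V * (A + e / 6) ≤ (2 + e) / b * P * x / l := by
    rw [le_div_iff₀ hl0, div_mul_eq_mul_div, div_mul_eq_mul_div, le_div_iff₀ hb0]
    linarith [mul_le_mul_of_nonneg_left h1 hx0.le]
  refine (add_le_add h6 (hR.trans (mul_le_mul_of_nonneg_left h2 two_pos.le))).trans ?_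
  rw [show (2 + e) / b * P * x / l + 2 * (e * P * x / l / 2) =
    ((2 + e) / b + e) * P * x / l by ring]
  have h7 : (2 + e) / b + e ≤ 4 + ε := by
    rw [div_add' _ _ _ hb0.ne', div_le_iff₀ hb0, hb]
    nlinarith [mul_le_mul_of_nonneg_left he1 hε.le]
  exact div_le_div_of_nonneg_right
    (mul_le_mul_of_nonneg_right (mul_le_mul_of_nonneg_right h7 (by linarith)) hx0.le) hl0.le

/-- The passage from `∑ log p` to the count. -/
theorem count_le_of_sum_log_le {T : Finset ℕ} {E : Finset ℕ} {R K s l : ℝ} (hs : 0 < s)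
    (hl : 0 < l) (hR : (#E : ℝ) ≤ R) (hlog : ∀ p ∈ T, p ∉ E → s * l ≤ Real.log p)
    (hsum : ∑ p ∈ T, Real.log p ≤ K) : (#T : ℝ) ≤ R + K / (s * l) := by
  rw [← card_filter_add_card_filter_not (s := T) (p := fun p => p ∈ E), Nat.cast_add]
  refine add_le_add ((Nat.cast_le.2 (card_le_card fun p hp => (mem_filter.1 hp).2)).trans hR) ?_
  rw [le_div_iff₀ (mul_pos hs hl), ← nsmul_eq_mul]
  refine (card_nsmul_le_sum _ _ _ fun p hp => hlog p (mem_filter.1 hp).1 (mem_filter.1 hp).2).trans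
    (le_trans ?_ hsum)
  exact sum_le_sum_of_subset_of_nonneg (filter_subset _ _)
    fun p _ _ => Real.log_natCast_nonneg p

/-- The exceptions and the loss of the logarithms. -/
theorem eventually_final_le {ε : ℝ} (hε : 0 < ε) : ∃ s : ℝ, 0 < s ∧ s < 1 ∧ 1 / 2 ≤ s ∧
    ∀ᶠ x : ℕ in atTop, ∀ P : ℝ, 1 / 2 ≤ P →
      3 * (x : ℝ) ^ s + (4 + ε / 3) * P * x / Real.log x / (s * Real.log x) ≤
        (4 + ε) * P * x / Real.log x ^ 2 := by
  obtain ⟨t, ht⟩ : ∃ t, t = min (ε / 30) (1 / 10) := ⟨_, rfl⟩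
  have ht0 : 0 < t := ht ▸ lt_min (by linarith) (by norm_num)
  have ht1 : t ≤ 1 / 10 := ht ▸ min_le_right _ _
  have ht2 : t ≤ ε / 30 := ht ▸ min_le_left _ _
  refine ⟨1 - t, by linarith, by linarith, by linarith, ?_⟩
  filter_upwards [Chen.eventually_power_saving (show 0 < ε / 18 by positivity)
    (show 1 - t < 1 by linarith) 2 1, eventually_gt_atTop 1] with x hx hx1 P hP
  have hl : 0 < Real.log x := Real.log_pos (Nat.one_lt_cast.2 hx1)
  have hs : (0 : ℝ) < 1 - t := by linarith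
  have h1 : 3 * (x : ℝ) ^ (1 - t) ≤ ε / 3 * P * x / Real.log x ^ 2 := by
    rw [le_div_iff₀ (by positivity)]
    have := mul_le_mul_of_nonneg_left hP (show 0 ≤ ε / 3 * (x : ℝ) by positivity)
    linarith
  have h2 : (4 + ε / 3) * P * x / Real.log x / ((1 - t) * Real.log x) ≤
      (4 + 2 * ε / 3) * P * x / Real.log x ^ 2 := by
    rw [div_div, show Real.log x * ((1 - t) * Real.log x) = (1 - t) * Real.log x ^ 2 by ring,
      ← div_div]
    refine div_le_div_of_nonneg_right ((div_le_iff₀ hs).2 ?_) (by positivity)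
    have h3 : 4 + ε / 3 ≤ (4 + 2 * ε / 3) * (1 - t) := by
      nlinarith [mul_le_mul_of_nonneg_left ht1 hε.le]
    nlinarith [mul_le_mul_of_nonneg_right h3 (show 0 ≤ P * x by positivity)]
  refine (add_le_add h1 h2).trans (le_of_eq ?_)
  ring

theorem card_small_le {x : ℕ} {s : ℝ} (hs : 0 ≤ s) (hx : 1 ≤ x) :
    (#((Icc 1 x).filter fun p : ℕ => (p : ℝ) ≤ (x : ℝ) ^ s) : ℝ) ≤ (x : ℝ) ^ s := by
  have h : (1 : ℝ) ≤ (x : ℝ) ^ s := Real.one_le_rpow (Nat.one_le_cast.2 hx) hs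
  refine (Nat.cast_le.2 (card_le_card (t := Icc 1 ⌊(x : ℝ) ^ s⌋₊) fun p hp => ?_)).trans ?_
  · rw [mem_filter, mem_Icc] at hp
    exact mem_Icc.2 ⟨hp.1.1, Nat.le_floor hp.2⟩
  · rw [Nat.card_Icc, Nat.add_sub_cancel]
    exact Nat.floor_le (by linarith)

/-- **Prime pairs.** -/
theorem eventually_pairs_le {ε : ℝ} (hε : 0 < ε) {h : ℕ} (hh : Even h) (hh0 : 0 < h) :
    ∀ᶠ x : ℕ in atTop, (#((Icc 1 x).filter fun p => p.Prime ∧ (p + h).Prime) : ℝ) ≤
      (4 + ε) * pairSeries h * x / Real.log x ^ 2 := by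
  obtain ⟨b, hb0, hb2, hb⟩ := eventually_sifted_le (show 0 < ε / 3 by positivity)
  obtain ⟨s, hs0, -, hs2, hs⟩ := eventually_final_le hε
  filter_upwards [hb, hs, eventually_ge_atTop (max 2 h)] with x hx hfin hxh
  have hx2 : 2 ≤ x := le_of_max_le_left hxh
  have hhx : h ≤ x := le_of_max_le_right hxh
  have hl : 0 < Real.log x := Real.log_pos (Nat.one_lt_cast.2 (by omega))
  have hx1 : (1 : ℝ) ≤ x := Nat.one_le_cast.2 (by omega)
  obtain ⟨z, hz⟩ : ∃ z, z = (x : ℝ) ^ b := ⟨_, rfl⟩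
  rw [← hz] at hx
  have hzs : z ≤ (x : ℝ) ^ s := hz ▸ Real.rpow_le_rpow_of_exponent_le hx1 (hb2.trans hs2)
  obtain ⟨c, hc⟩ : ∃ c, c = (sievingProd z h - 1) * h := ⟨_, rfl⟩
  have hP := sievingProd_pos z h
  have hmain := hx h c hh.two_dvd hh0 hhx fun q hq hqy hqh hqc => by
    rw [hc] at hqc
    rcases hq.dvd_mul.1 hqc with h1 | h1
    · have h3 := Nat.dvd_sub ((prime_dvd_sievingProd_iff hq).2 ⟨hqy, hqh⟩) h1
      rw [Nat.sub_sub_self hP] at h3
      exact hq.not_dvd_one h3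
    · exact hqh h1
  obtain ⟨T, hT⟩ : ∃ T, T = (Icc 1 x).filter fun p => p.Prime ∧ (p + h).Prime ∧
      (x : ℝ) ^ s < p := ⟨_, rfl⟩
  have hsub : ∑ p ∈ T, Real.log p ≤ (4 + ε / 3) * pairSeries h * x / Real.log x := by
    refine le_trans (sum_le_sum_of_subset_of_nonneg (fun p hp => ?_)
      fun p _ _ => Real.log_natCast_nonneg p) hmain
    rw [hT, mem_filter] at hp
    obtain ⟨hpI, hpp, hph, hpz⟩ := hp
    refine mem_filter.2 ⟨hpI, hpp, ?_⟩
    by_contra hcop
    obtain ⟨q, hq, hqP, hqd⟩ := Nat.Prime.not_coprime_iff_dvd.1 hcop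
    obtain ⟨hqz, hqh⟩ := (prime_dvd_sievingProd_iff hq).1 hqP
    have hmod := (dvd_add_classShift_iff hqP).1 hqd
    have hdvd : q ∣ p + h := by
      rw [← ZMod.natCast_eq_natCast_iff, hc] at hmod
      push_cast [Nat.cast_sub (show 1 ≤ sievingProd z h from hP)] at hmod
      rw [(ZMod.natCast_eq_zero_iff _ _).2 hqP, zero_sub, neg_one_mul] at hmod
      refine (ZMod.natCast_eq_zero_iff _ _).1 ?_
      push_cast
      rw [hmod, neg_add_cancel]
    rw [Nat.prime_dvd_prime_iff_eq hq hph] at hdvd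
    have : (p : ℝ) ≤ q := Nat.cast_le.2 (by omega)
    linarith
  have hsplit : (#((Icc 1 x).filter fun p => p.Prime ∧ (p + h).Prime) : ℝ) ≤
      (#((Icc 1 x).filter fun p : ℕ => (p : ℝ) ≤ (x : ℝ) ^ s) : ℝ) + #T := by
    rw [← Nat.cast_add]
    refine Nat.cast_le.2 ((card_le_card fun p hp => ?_).trans (card_union_le _ _))
    rw [mem_filter] at hp
    rcases le_or_gt (p : ℝ) ((x : ℝ) ^ s) with h1 | h1
    · exact mem_union_left _ (mem_filter.2 ⟨hp.1, h1⟩)
    · exact mem_union_right _ (hT ▸ mem_filter.2 ⟨hp.1, hp.2.1, hp.2.2, h1⟩)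
  refine hsplit.trans ((add_le_add (card_small_le hs0.le (by omega))
    (count_le_of_sum_log_le (E := ∅) (R := 0) hs0 hl (by simp) (fun p hp _ => ?_) hsub)).trans ?_)
  · rw [hT, mem_filter] at hp
    rw [← Real.log_rpow (by linarith : (0 : ℝ) < x)]
    exact Real.log_le_log (Real.rpow_pos_of_pos (by linarith) _) hp.2.2.2.le
  · have := hfin (pairSeries h) (AlmostGoldbach.half_le_pairSeries hh0.ne' hh)
    have : 0 ≤ (x : ℝ) ^ s := by positivity
    linarith

/-- **Goldbach's representations.** -/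
theorem eventually_goldbach_le {ε : ℝ} (hε : 0 < ε) : ∀ᶠ N : ℕ in atTop, Even N →
    (#((range N).filter fun p => p.Prime ∧ (N - p).Prime) : ℝ) ≤
      (4 + ε) * pairSeries N * N / Real.log N ^ 2 := by
  obtain ⟨b, hb0, hb2, hb⟩ := eventually_sifted_le (show 0 < ε / 3 by positivity)
  obtain ⟨s, hs0, -, hs2, hs⟩ := eventually_final_le hε
  filter_upwards [hb, hs, eventually_ge_atTop 2] with N hx hfin hN2 heven
  have hl : 0 < Real.log N := Real.log_pos (Nat.one_lt_cast.2 (by omega))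
  have hx1 : (1 : ℝ) ≤ N := Nat.one_le_cast.2 (by omega)
  obtain ⟨z, hz⟩ : ∃ z, z = (N : ℝ) ^ b := ⟨_, rfl⟩
  rw [← hz] at hx
  have hzs : z ≤ (N : ℝ) ^ s := hz ▸ Real.rpow_le_rpow_of_exponent_le hx1 (hb2.trans hs2)
  have hmain := hx N N heven.two_dvd (by omega) le_rfl fun q _ _ hq => hq
  obtain ⟨T, hT⟩ : ∃ T, T = (range N).filter fun p => p.Prime ∧ (N - p).Prime ∧
      (N : ℝ) ^ s < p ∧ (N : ℝ) ^ s < ((N - p : ℕ) : ℝ) := ⟨_, rfl⟩
  have hsub : ∑ p ∈ T, Real.log p ≤ (4 + ε / 3) * pairSeries N * N / Real.log N := by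
    refine le_trans (sum_le_sum_of_subset_of_nonneg (fun p hp => ?_)
      fun p _ _ => Real.log_natCast_nonneg p) hmain
    rw [hT, mem_filter, mem_range] at hp
    obtain ⟨hpN, hpp, hph, -, hpz⟩ := hp
    refine mem_filter.2 ⟨mem_Icc.2 ⟨hpp.one_le, hpN.le⟩, hpp, ?_⟩
    by_contra hcop
    obtain ⟨q, hq, hqP, hqd⟩ := Nat.Prime.not_coprime_iff_dvd.1 hcop
    obtain ⟨hqz, -⟩ := (prime_dvd_sievingProd_iff hq).1 hqP
    have hdvd := (Nat.modEq_iff_dvd' hpN.le).1 ((dvd_add_classShift_iff hqP).1 hqd)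
    rw [Nat.prime_dvd_prime_iff_eq hq hph] at hdvd
    rw [← hdvd] at hpz
    linarith
  have hsplit : (#((range N).filter fun p => p.Prime ∧ (N - p).Prime) : ℝ) ≤
      2 * (#((Icc 1 N).filter fun p : ℕ => (p : ℝ) ≤ (N : ℝ) ^ s) : ℝ) + #T := by
    obtain ⟨E₂, hE₂⟩ : ∃ E₂, E₂ = ((Icc 1 N).filter fun p : ℕ => (p : ℝ) ≤ (N : ℝ) ^ s).image
        (N - ·) := ⟨_, rfl⟩
    have h2 : #E₂ ≤ #((Icc 1 N).filter fun p : ℕ => (p : ℝ) ≤ (N : ℝ) ^ s) := hE₂ ▸ card_image_le
    refine le_trans (Nat.cast_le.2 ((card_le_card (t := ((Icc 1 N).filter fun p : ℕ =>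
      (p : ℝ) ≤ (N : ℝ) ^ s) ∪ E₂ ∪ T) fun p hp => ?_).trans ((card_union_le _ _).trans
        (add_le_add ((card_union_le _ _).trans (add_le_add le_rfl h2)) le_rfl)))) (le_of_eq ?_)
    · rw [mem_filter, mem_range] at hp
      rcases le_or_gt (p : ℝ) ((N : ℝ) ^ s) with h1 | h1
      · exact mem_union_left _ (mem_union_left _
          (mem_filter.2 ⟨mem_Icc.2 ⟨hp.2.1.one_le, hp.1.le⟩, h1⟩))
      rcases le_or_gt (((N - p : ℕ) : ℝ)) ((N : ℝ) ^ s) with h3 | h3
      · exact mem_union_left _ (mem_union_right _ (hE₂ ▸ mem_image.2 ⟨N - p,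
          mem_filter.2 ⟨mem_Icc.2 ⟨hp.2.2.one_le, Nat.sub_le N p⟩, h3⟩, by omega⟩))
      · exact mem_union_right _ (hT ▸ mem_filter.2 ⟨mem_range.2 hp.1, hp.2.1, hp.2.2, h1, h3⟩)
    · push_cast
      ring
  refine hsplit.trans ((add_le_add (mul_le_mul_of_nonneg_left (card_small_le hs0.le (by omega))
    two_pos.le) (count_le_of_sum_log_le (E := ∅) (R := 0) hs0 hl (by simp) (fun p hp _ => ?_)
      hsub)).trans ?_)
  · rw [hT, mem_filter] at hp
    rw [← Real.log_rpow (by linarith : (0 : ℝ) < N)]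
    exact Real.log_le_log (Real.rpow_pos_of_pos (by linarith) _) hp.2.2.2.1.le
  · have := hfin (pairSeries N) (AlmostGoldbach.half_le_pairSeries (by omega) heven)
    have : 0 ≤ (N : ℝ) ^ s := by positivity
    linarith

theorem tendsto_twinConst : Tendsto (fun k : ℕ => 2 * ∏ p ∈ k.primesBelow.erase 2,
    (1 - 1 / ((p : ℝ) - 1) ^ 2)) atTop (𝓝 (pairSeries 2)) := by
  refine (tendsto_prod_pairFactor two_ne_zero).congr' ?_
  filter_upwards [eventually_gt_atTop 2] with k hk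
  rw [← mul_prod_erase _ (pairFactor 2) (Nat.mem_primesBelow.2 ⟨hk, Nat.prime_two⟩),
    pairFactor_dvd Nat.prime_two dvd_rfl]
  norm_num
  refine prod_congr rfl fun p hp => ?_
  rw [mem_erase, Nat.mem_primesBelow] at hp
  rw [pairFactor_not_dvd hp.2.2 fun h =>
    hp.1 ((Nat.prime_dvd_prime_iff_eq hp.2.2 Nat.prime_two).1 h)]
  simp

end FA.SieveConstant
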